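/-
M59 / box [C + S38g], cell [MAZUR], LEVEL 3 (helper16, owner of [MAZUR]; ruling #48, table #5259).
Prefix `m59mz_`.

`m59mz_mazur_of : m59e_IrrW_stmt → m59e_Link_stmt → m59mz_Copy_stmt → m59mz_LevelDelta_stmt →
    m59mz_JUnr_stmt → m59mz_GeoOdd_stmt → m59mz_GeoTwoFive_stmt → m59mz_ThreeTwo_stmt →
    m59m_Mazur_stmt`        (PROVED here; `m59m_Mazur_stmt` : `M59/Top/LowerQOf.lean`).

The cut is the one of S43's block [F] (`TW/Easy/GeoSeam.lean`, `twf_mazur_of_cells`), Frey-free, in the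
vocabulary of the engine (`m59e_Occ`, `m59e_IsTate`).  `V := W[p](ℚ̄)` (`m59mz_Tors W p`), never the
abstract space of `ρ̄`; the two are tied by the cell [LINK].

* **[IRR-W]** `m59e_IrrW_stmt`, **[LINK]** `m59e_Link_stmt` : the shared cells pinned by the chief in
  `M59/Top/LinkSeams.lean` (proved by helper2: `m59lg_irrW`, `m59lg_link`, `M59/LG/Link.lean`).
* **[COPY]**  `m59mz_Copy_stmt` : `m59e_Occ p W S N` ⟹ a copy `ι : W[p] → J₀(N)`, injective, equivariant,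
  with `T_ℓ = a_ℓ(W)` for `ℓ ∤ N`, `ℓ ∉ S` (twin of `s44b_blr_of` with `S` given).
* **[LEVEL-δ]** `m59mz_LevelDelta_stmt` : a nonzero class of `Pic⁰(F̃_M / k_A)[p]` with
  `T̃_ℓ δ = a_ℓ(W) δ`, `ℓ ∤ M`, `ℓ ∉ S`, gives `m59e_Occ p W S M` (twin of `twf_level_of_delta`).
* **[J-UNR]** `m59mz_JUnr_stmt` : `J₀(N)[p]` is unramified at `q ∤ N p`.
* **[GEO]** `m59mz_Geo M hqM p` : for every place `A` over `q`, main's COVER-FREE cell Props
  `twf_CompCells` ((Z3)+(Z4)), `twf_ResHecke_stmt` ((Z6)), `twf_ToricW_stmt` ((Z8)), and `ℤ`-linearity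
  of `δ` on `J[p] ∩ ker ν`.
  - `m59mz_GeoOdd_stmt`     : `q` odd, and `2 ∣ M` if `p = 3` (`p = 5`: main's cells; `p = 3`: the
    even-level twins with the recut weights `k_Q = e_Q ∈ {1, 2}`);
  - `m59mz_GeoTwoFive_stmt` : `q = 2`, `p = 5` (Hesse port).
* **[MZ-32]** `m59mz_ThreeTwo_stmt` : `m59m_Mazur_stmt` restricted to `(p, q) = (3, 2)`: a NEW block,
  kept as ONE Prop (at `q = 2`, `M` odd, the thicknesses `e_Q` may be `3`, e.g. `X₀(14)`: unit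
  weights mod `3` do not exist, so it is NOT stated through `twf_CompCells`).

Wiring: `q = 2`: [GEO] resp. [MZ-32].  `q` odd and (`p = 5` or `2 ∣ N`): [GEO].  `q` odd, `p = 3`, `N`
odd: `Occ N ⟹ Occ (2N)` (`m59e_occ_mono`, `2 ∈ S`) `⟹ Occ (2N/q)` ([GEO] at even level) `⟹ Occ (N/q)`
([MZ-32] at level `2N/q`; `ρ̄` is unramified at `2` by [COPY] + [J-UNR] + [LINK]; `2` is never hard).
-/
import Mathlib
import Fermat.Agent.M59.Top.LowerQOf
import Fermat.Agent.M59.Top.LinkSeams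
import Fermat.Agent.TW.Easy.GeoSeam
import Fermat.Agent.TW.Easy.DetFrob
import Fermat.Agent.TW.Aut.CarLocalGal

set_option autoImplicit false
set_option linter.unusedSectionVars false
set_option linter.unusedVariables false
set_option linter.style.haveILetI false
set_option synthInstance.maxHeartbeats 400000
set_option maxHeartbeats 1000000

noncomputable section

namespace Fermat.Agent.M59

open WeierstrassCurve WeierstrassCurve.Affine WeierstrassCurve.Affine.Point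
open ModularCurve AlgebraicCurve IsLocalRing Polynomial CuspForm
open Fermat.Agent.JT3 Fermat.Agent.S35 Fermat.Agent.SS Fermat.Agent.S24 Fermat.Agent.S44
  Fermat.Agent.S43 Fermat.Agent.MZ Fermat.Agent.TW Fermat.Agent.S58
open scoped WeierstrassCurve.Affine

local notation "Qb" => AlgebraicClosure ℚ
local notation "GQ" => (AlgebraicClosure ℚ ≃ₐ[ℚ] AlgebraicClosure ℚ)

/-! ### vocabulary -/

/-- the `G_ℚ`-module `W[p](ℚ̄)` -/
abbrev m59mz_Tors (W : WeierstrassCurve ℤ) (p : ℕ) : Type :=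
  ↥(Submodule.torsionBy ℤ ((s58_WQ W)⁄Qb).Point (p : ℤ))

/-- `ι` embeds `W[p]` into `J₀(N)`, `G_ℚ`-equivariantly, with `T_ℓ = a_ℓ(W)` on the image for the
primes `ℓ ∤ N`, `ℓ ∉ S`. -/
structure m59mz_IsCopy (p : ℕ) (W : WeierstrassCurve ℤ) (S : Finset ℕ) (N : ℕ) [NeZero N]
    (ι : m59mz_Tors W p →+ JZero N) : Prop where
  inj : Function.Injective ι
  equiv : ∀ (σ : GQ) (x : m59mz_Tors W p), ι (σ • x) = σ • ι x
  eigen : ∀ ℓ : Nat.Primes, ¬ (ℓ : ℕ) ∣ N → (ℓ : ℕ) ∉ S →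
    ∀ x : m59mz_Tors W p, heckeOperatorBar N ℓ (ι x) = (W.apOfModel ℓ) • ι x

/-- `ρ̄` contains the `𝔽_p`-form `W[p]`: an injective additive equivariant map `W[p] → ρ̄.V`. -/
def m59mz_IsLink (p : ℕ) (W : WeierstrassCurve ℤ) {k : Type} [Field k]
    (ρbar : ResidualGaloisRep k) : Prop :=
  ∃ f : m59mz_Tors W p →+ ρbar.V, Function.Injective f ∧
    ∀ (σ : GQ) (x : m59mz_Tors W p), f (σ • x) = ρbar.ρ σ (f x)

/-! ### the cells -/

/-- **[COPY]**: Boston–Lenstra–Ribet in `Occ` form. -/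
def m59mz_Copy_stmt : Prop :=
  ∀ (p : ℕ) [Fact p.Prime], p = 3 ∨ p = 5 → ∀ W : WeierstrassCurve ℤ, W.Δ ≠ 0 →
    W.ModRepIsIrreducible p →
  ∀ (𝒪 : Type) [CommRing 𝒪] [IsDomain 𝒪] [IsDiscreteValuationRing 𝒪]
    [IsAdicComplete (maximalIdeal 𝒪) 𝒪] [Finite (ResidueField 𝒪)] [CharZero 𝒪],
    (p : 𝒪) ∈ maximalIdeal 𝒪 →
  ∀ ρ : GaloisRepAdic 𝒪, m59e_IsTate p W ρ →
  ∀ (S : Finset ℕ) (N : ℕ) [NeZero N], m59e_IsBadSet W p S →
    (∀ ℓ : ℕ, ℓ.Prime → ℓ ∣ N → ℓ ∈ S) → m59e_Occ p W S N →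
    ∃ ι : m59mz_Tors W p →+ JZero N, m59mz_IsCopy p W S N ι

/-- **[LEVEL-δ]**: the two-prime OLD-k in `Occ` form. -/
def m59mz_LevelDelta_stmt : Prop :=
  ∀ (p : ℕ) [Fact p.Prime] (W : WeierstrassCurve ℤ) (S : Finset ℕ) (M q : ℕ) [NeZero M],
    q.Prime → ¬ q ∣ M → q ≠ p → p ∈ S → q ∈ S → (∀ ℓ : ℕ, ℓ.Prime → ℓ ∣ M → ℓ ∈ S) →
  ∀ A : ValuationSubring Qb, A.LiesOverPrime q →
  ∀ δ : JZeroC (ResidueField A) M, δ ≠ 0 → p • δ = 0 →
    (∀ ℓ : Nat.Primes, ¬ (ℓ : ℕ) ∣ M → (ℓ : ℕ) ∉ S →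
      s44k2_TCp (ResidueField A) M ℓ δ = (W.apOfModel ℓ) • δ) →
    m59e_Occ p W S M

/-- **[J-UNR]**: `J₀(N)[p]` is unramified at `q ∤ N p`. -/
def m59mz_JUnr_stmt : Prop :=
  ∀ (N q p : ℕ) [NeZero N], q.Prime → p.Prime → ¬ q ∣ N → q ≠ p →
  ∀ A : ValuationSubring Qb, A.LiesOverPrime q → ∀ σ ∈ A.inertiaSubgroupIn ℚ,
  ∀ z : JZero N, p • z = 0 → σ • z = z

/-- **[GEO]**: the geometric cells (Z3)+(Z4), (Z6), (Z8) of S43's block [F] (main's cover-free Props)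
and the `ℤ`-linearity of `δ` on `J[p] ∩ ker ν`, for every place over `q`. -/
def m59mz_Geo (M : ℕ) {q : ℕ} [NeZero M] [NeZero q] [NeZero (M * q)] [hq : Fact q.Prime]
    (hqM : ¬ q ∣ M) (p : ℕ) : Prop :=
  ∀ A : ValuationSubring Qb, A.LiesOverPrime q →
    (∃ (S : Finset ℕ) (k : s44e_Sg A M q hq.out hqM → ZMod p)
      (B : Nat.Primes → (s44e_Sg A M q hq.out hqM → ZMod p) →+
        (s44e_Sg A M q hq.out hqM → ZMod p)), twf_CompCells A M hqM p S k B) ∧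
    twf_ResHecke_stmt A M hqM p ∧
    (∃ s : ℤ, (s = 1 ∨ s = -1) ∧ twf_ToricW_stmt A M hqM p s) ∧
    (∀ z : JZero (M * q), p • z = 0 → twfr_nu A M q hq.out hqM p z = 0 → ∀ n : ℤ,
      twfr_delta A M q p (n • z) = n • twfr_delta A M q p z)

/-- **[GEO], `q` odd**: `p = 5` at any level (main's cells), `p = 3` at EVEN level `M`. -/
def m59mz_GeoOdd_stmt : Prop :=
  ∀ (M q : ℕ) [NeZero M] [NeZero q] [NeZero (M * q)] [Fact q.Prime] (hqM : ¬ q ∣ M) (p : ℕ),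
    q ≠ 2 → p = 3 ∨ p = 5 → p ≠ q → (p = 3 → 2 ∣ M) → m59mz_Geo M hqM p

/-- **[GEO], `q = 2`, `p = 5`** (Hesse port). -/
def m59mz_GeoTwoFive_stmt : Prop :=
  ∀ (M q : ℕ) [NeZero M] [NeZero q] [NeZero (M * q)] [Fact q.Prime] (hqM : ¬ q ∣ M),
    q = 2 → m59mz_Geo M hqM 5

/-- **[MZ-32]**: Mazur's principle at `(p, q) = (3, 2)` (`2` is never hard). -/
def m59mz_ThreeTwo_stmt : Prop :=
  ∀ W : WeierstrassCurve ℤ, W.Δ ≠ 0 → W.IsSemistableModel →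
  ∀ (𝒪 : Type) [CommRing 𝒪] [IsDomain 𝒪] [IsDiscreteValuationRing 𝒪]
    [IsAdicComplete (maximalIdeal 𝒪) 𝒪] [Finite (ResidueField 𝒪)] [CharZero 𝒪],
    ((3 : ℕ) : 𝒪) ∈ maximalIdeal 𝒪 →
  ∀ ρ : GaloisRepAdic 𝒪, m59e_IsTate 3 W ρ →
  ∀ (S : Finset ℕ) (N : ℕ), m59e_IsBadSet W 3 S → 2 ∈ S → Squarefree N →
    (∀ ℓ : ℕ, ℓ.Prime → ℓ ∣ N → ℓ ∈ S) → 2 ∣ N →
    (W.IsGoodPrimeFor 3 → ¬ 3 ∣ N) →
    ρ.residual.IsUnramifiedAt 2 → m59e_Occ 3 W S N → m59e_Occ 3 W S (N / 2)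

/-! ### small helpers -/

theorem m59mz_tors_smul (W : WeierstrassCurve ℤ) (p : ℕ) (x : m59mz_Tors W p) : p • x = 0 := by
  apply Subtype.ext
  have h := (Submodule.mem_torsionBy_iff _ _).1 x.2
  rw [Submodule.coe_smul_of_tower, Submodule.coe_zero, ← natCast_zsmul]
  exact h

/-- the residue field of a local ring with `p ∈ 𝔪` has characteristic `p`. -/
theorem m59mz_charP_residue (p : ℕ) [hp : Fact p.Prime] {𝒪 : Type} [CommRing 𝒪] [IsLocalRing 𝒪]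
    (hp𝒪 : (p : 𝒪) ∈ maximalIdeal 𝒪) : CharP (ResidueField 𝒪) p := by
  have h0 : (p : ResidueField 𝒪) = 0 := by
    have : (residue 𝒪) (p : 𝒪) = 0 := (residue_eq_zero_iff _).mpr hp𝒪
    rwa [map_natCast] at this
  obtain ⟨q, hq⟩ := CharP.exists (ResidueField 𝒪)
  have hdvd : q ∣ p := (CharP.cast_eq_zero_iff (ResidueField 𝒪) q p).mp h0
  rcases (Nat.dvd_prime hp.out).mp hdvd with h1 | h1
  · subst h1
    have h1 : (1 : ResidueField 𝒪) = 0 := by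
      have := CharP.cast_eq_zero (ResidueField 𝒪) 1
      rwa [Nat.cast_one] at this
    exact absurd h1 one_ne_zero
  · subst h1
    exact hq

/-- the non-Eisenstein primes of `m59e_IsTate`, in `ZMod p`. -/
theorem m59mz_nonEis {p : ℕ} [Fact p.Prime] {W : WeierstrassCurve ℤ} {𝒪 : Type}
    [CommRing 𝒪] [IsLocalRing 𝒪] (hp𝒪 : (p : 𝒪) ∈ maximalIdeal 𝒪)
    {ρ : GaloisRepAdic 𝒪} (hT : m59e_IsTate p W ρ) (S : Finset ℕ) :
    ∃ ℓ : ℕ, ℓ.Prime ∧ ℓ ∉ S ∧ ((W.apOfModel ℓ : ℤ) : ZMod p) ≠ ((ℓ : ℕ) : ZMod p) + 1 := by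
  haveI hchar : CharP (ResidueField 𝒪) p := m59mz_charP_residue p hp𝒪
  obtain ⟨ℓ, hℓ, hℓS, hne⟩ := hT.nonEis S
  refine ⟨ℓ, hℓ, hℓS, fun h => hne ?_⟩
  have h1 := congrArg (ZMod.castHom (dvd_refl p) (ResidueField 𝒪)) h
  rwa [map_intCast, map_add, map_natCast, map_one] at h1

section WCopy

variable {p : ℕ} [hp : Fact p.Prime] {W : WeierstrassCurve ℤ}

/-- a nonzero `G_ℚ`-equivariant additive map out of the irreducible `W[p]` is injective. -/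
theorem m59mz_inj_of_ne_zero {J : Type*} [AddCommGroup J] [DistribMulAction GQ J]
    (hirr : W.ModRepIsIrreducible p)
    (g : m59mz_Tors W p →+ J) (hg : ∀ (σ : GQ) (x : m59mz_Tors W p), g (σ • x) = σ • g x)
    (hne : ∃ y, g y ≠ 0) : Function.Injective g := by
  set Nk : Submodule (ZMod p) (m59mz_Tors W p) := AddSubgroup.toZModSubmodule p g.ker with hNk
  have hmem : ∀ x, x ∈ Nk ↔ g x = 0 := fun x => by
    rw [hNk, AddSubgroup.mem_toZModSubmodule, AddMonoidHom.mem_ker]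
  have hst : IsGaloisStable ℚ Nk := by
    intro σ x hx
    rw [hmem] at hx ⊢
    rw [hg, hx, smul_zero]
  rcases hirr.2 Nk hst with h | h
  · rw [injective_iff_map_eq_zero]
    intro x hx
    have : x ∈ Nk := (hmem x).2 hx
    rw [h, Submodule.mem_bot] at this
    exact this
  · obtain ⟨y, hy⟩ := hne
    exact absurd ((hmem y).1 (h ▸ Submodule.mem_top)) hy

variable {S : Finset ℕ} (M q : ℕ) [NeZero M] [NeZero q] [NeZero (M * q)] (hq : q.Prime)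
  (hqM : ¬ q ∣ M)

/-- one candidate `ι + ε W_q ∘ ι`, if it is not zero. -/
theorem m59mz_w_copy_aux (hirr : W.ModRepIsIrreducible p)
    (ι : m59mz_Tors W p →+ JZero (M * q)) (hι : m59mz_IsCopy p W S (M * q) ι)
    (ε : ℤ) (hεε : ε * ε = 1)
    (hne : ∃ y, ι y + ε • s44w_WJ M q hq hqM (ι y) ≠ 0) :
    ∃ ι' : m59mz_Tors W p →+ JZero (M * q), m59mz_IsCopy p W S (M * q) ι' ∧
      (∀ y, s44w_WJ M q hq hqM (ι' y) = ε • ι' y) := by
  have hp0 : p ≠ 0 := hp.out.ne_zero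
  have hpι : ∀ y : m59mz_Tors W p, p • ι y = 0 := fun y => by
    rw [← map_nsmul, m59mz_tors_smul, _root_.map_zero]
  have hWW : ∀ y, s44w_WJ M q hq hqM (s44w_WJ M q hq hqM (ι y)) = ι y := fun y =>
    twf_w_WJ_WJ M q hq hqM p hp0 (ι y) (hpι y)
  refine ⟨ι + ε • (s44w_WJ M q hq hqM).comp ι, ?_, ?_⟩
  · have hval : ∀ y, (ι + ε • (s44w_WJ M q hq hqM).comp ι) y =
        ι y + ε • s44w_WJ M q hq hqM (ι y) := fun y => rfl
    have hequiv : ∀ (σ : GQ) (x : m59mz_Tors W p),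
        (ι + ε • (s44w_WJ M q hq hqM).comp ι) (σ • x) =
          σ • (ι + ε • (s44w_WJ M q hq hqM).comp ι) x := by
      intro σ x
      rw [hval, hval, hι.equiv, s44w_WJ_smul, smul_add, smul_comm σ ε]
    refine ⟨?_, hequiv, ?_⟩
    · refine m59mz_inj_of_ne_zero hirr _ hequiv ?_
      obtain ⟨y, hy⟩ := hne
      exact ⟨y, by rw [hval]; exact hy⟩
    · intro ℓ hℓN hℓS x
      haveI : NeZero (ℓ : ℕ) := ⟨ℓ.2.ne_zero⟩
      have hcomm : s44w_WJ M q hq hqM (heckeOperatorBar (M * q) ℓ (ι x)) =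
          heckeOperatorBar (M * q) ℓ (s44w_WJ M q hq hqM (ι x)) :=
        s44w_WJ_hecke M q (ℓ : ℕ) hq hqM ℓ.2 hℓN (ι x) p hp0 (hpι x)
      rw [hval]
      exact twf_w_hecke_aux (heckeOperatorBar (M * q) ℓ) (s44w_WJ M q hq hqM) (ι x) _ ε
        (hι.eigen ℓ hℓN hℓS x) hcomm
  · intro y
    exact twf_w_eigen_aux (s44w_WJ M q hq hqM) (ι y) (hWW y) ε hεε

/-- **The `W_q`-eigen copy** (twin of `twf_w_copy`). -/
theorem m59mz_w_copy (hp2 : p ≠ 2) (hirr : W.ModRepIsIrreducible p)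
    (ι : m59mz_Tors W p →+ JZero (M * q)) (hι : m59mz_IsCopy p W S (M * q) ι) :
    ∃ (ε : ℤ) (ι' : m59mz_Tors W p →+ JZero (M * q)), (ε = 1 ∨ ε = -1) ∧
      m59mz_IsCopy p W S (M * q) ι' ∧
      (∀ y, s44w_WJ M q hq hqM (ι' y) = ε • ι' y) := by
  have hpι : ∀ y : m59mz_Tors W p, p • ι y = 0 := fun y => by
    rw [← map_nsmul, m59mz_tors_smul, _root_.map_zero]
  by_cases h1 : ∃ y, ι y + (1 : ℤ) • s44w_WJ M q hq hqM (ι y) ≠ 0
  · obtain ⟨ι', h⟩ := m59mz_w_copy_aux M q hq hqM hirr ι hι 1 (by norm_num) h1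
    exact ⟨1, ι', Or.inl rfl, h⟩
  by_cases h2 : ∃ y, ι y + (-1 : ℤ) • s44w_WJ M q hq hqM (ι y) ≠ 0
  · obtain ⟨ι', h⟩ := m59mz_w_copy_aux M q hq hqM hirr ι hι (-1) (by norm_num) h2
    exact ⟨-1, ι', Or.inr rfl, h⟩
  exfalso
  push Not at h1 h2
  obtain ⟨x, y, hxy⟩ := hirr.1
  have hodd : Nat.Coprime 2 p := by
    rw [Nat.coprime_comm]
    refine (Nat.Prime.coprime_iff_not_dvd hp.out).2 (fun h => hp2 ?_)
    exact (Nat.prime_dvd_prime_iff_eq hp.out Nat.prime_two).mp h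
  have hzero : ∀ y, ι y = 0 := by
    intro y
    have e1 := h1 y
    have e2 := h2 y
    rw [one_smul] at e1
    rw [neg_one_smul] at e2
    exact twf_w_zero_aux (ι y) _ p hodd e1 e2 (hpι y)
  exact hxy (hι.inj (by rw [hzero x, hzero y]))

end WCopy

/-! ### the link `W[p] ↪ ρ̄.V` -/

section Link

variable {k : Type} [Field k] (ρbar : ResidualGaloisRep k)

/-- a nonzero `G_ℚ`-stable subspace of an absolutely irreducible `ρ̄` is everything (Burnside). -/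
theorem m59mz_top_of_stable (habs : ρbar.IsAbsolutelyIrreducible) (U : Submodule k ρbar.V)
    (hU : ∀ (σ : GQ), ∀ x ∈ U, ρbar.ρ σ x ∈ U) (hne : ∃ u ∈ U, u ≠ 0) : U = ⊤ := by
  have hspan := twe_cg_span ρbar habs
  have hall : ∀ T : Module.End k ρbar.V, ∀ x ∈ U, T x ∈ U := by
    intro T
    have hT : T ∈ Submodule.span k (Set.range ρbar.ρ) := by rw [hspan]; exact Submodule.mem_top
    induction hT using Submodule.span_induction with
    | mem T hT =>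
      obtain ⟨σ, rfl⟩ := hT
      exact hU σ
    | zero => intro x _; rw [LinearMap.zero_apply]; exact U.zero_mem
    | add T T' _ _ h h' =>
      intro x hx; rw [LinearMap.add_apply]; exact U.add_mem (h x hx) (h' x hx)
    | smul c T _ h =>
      intro x hx; rw [LinearMap.smul_apply]; exact U.smul_mem c (h x hx)
  obtain ⟨u, hu, hu0⟩ := hne
  rw [eq_top_iff]
  intro v _
  have hinj : Function.Injective (LinearMap.toSpanSingleton k ρbar.V u) := by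
    rw [injective_iff_map_eq_zero]
    intro c hc
    rw [LinearMap.toSpanSingleton_apply] at hc
    rcases smul_eq_zero.mp hc with h | h
    · exact h
    · exact absurd h hu0
  obtain ⟨g, hg⟩ := LinearMap.exists_leftInverse_of_injective _
    (LinearMap.ker_eq_bot.mpr hinj)
  have hgu : g u = 1 := by
    have := LinearMap.congr_fun hg (1 : k)
    rwa [LinearMap.comp_apply, LinearMap.toSpanSingleton_apply, one_smul,
      LinearMap.id_apply] at this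
  have := hall ((LinearMap.toSpanSingleton k ρbar.V v).comp g) u hu
  rwa [LinearMap.comp_apply, hgu, LinearMap.toSpanSingleton_apply, one_smul] at this

variable {p : ℕ} {W : WeierstrassCurve ℤ}

/-- the image of the link spans `ρ̄.V`. -/
theorem m59mz_link_span (habs : ρbar.IsAbsolutelyIrreducible) [Nontrivial (m59mz_Tors W p)]
    (f : m59mz_Tors W p →+ ρbar.V) (hf : Function.Injective f)
    (hfe : ∀ (σ : GQ) (x : m59mz_Tors W p), f (σ • x) = ρbar.ρ σ (f x)) :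
    Submodule.span k (Set.range f) = ⊤ := by
  refine m59mz_top_of_stable ρbar habs _ ?_ ?_
  · intro σ x hx
    induction hx using Submodule.span_induction with
    | mem x hx =>
      obtain ⟨y, rfl⟩ := hx
      rw [← hfe]
      exact Submodule.subset_span ⟨_, rfl⟩
    | zero => rw [_root_.map_zero]; exact Submodule.zero_mem _
    | add x y _ _ h h' => rw [_root_.map_add]; exact Submodule.add_mem _ h h'
    | smul c x _ h => rw [map_smul]; exact Submodule.smul_mem _ c h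
  · obtain ⟨x, y, hxy⟩ := exists_pair_ne (m59mz_Tors W p)
    by_cases hx : f x = 0
    · refine ⟨f y, Submodule.subset_span ⟨_, rfl⟩, fun hy => hxy (hf ?_)⟩
      rw [hx, hy]
    · exact ⟨f x, Submodule.subset_span ⟨_, rfl⟩, hx⟩

/-- two endomorphisms of `ρ̄.V` which agree on the image of the link are equal. -/
theorem m59mz_link_ext (habs : ρbar.IsAbsolutelyIrreducible) [Nontrivial (m59mz_Tors W p)]
    (f : m59mz_Tors W p →+ ρbar.V) (hf : Function.Injective f)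
    (hfe : ∀ (σ : GQ) (x : m59mz_Tors W p), f (σ • x) = ρbar.ρ σ (f x))
    (T T' : Module.End k ρbar.V) (h : ∀ x, T (f x) = T' (f x)) : T = T' := by
  refine LinearMap.ext_on (m59mz_link_span ρbar habs f hf hfe) ?_
  rintro _ ⟨x, rfl⟩
  exact h x

end Link

/-! ### the geometric wiring (twin of `twf_nu_zero`, `twf_delta_zero_or_level`, `twf_mazur_full`) -/

section Geo

variable {p : ℕ} [hp : Fact p.Prime] {W : WeierstrassCurve ℤ} {S : Finset ℕ}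
  (M q : ℕ) [NeZero M] [NeZero q] [NeZero (M * q)] [hq : Fact q.Prime] (hqM : ¬ q ∣ M)
  (A : ValuationSubring Qb) (hA : A.LiesOverPrime q)

include hA in
/-- **(Z5)**: (Z3) + (Z4) + non-Eisenstein ⟹ `ν (ι y) = 0` for a copy `ι` of a `W[p]` unramified at
`q`. -/
theorem m59mz_nu_zero
    (hnonEis : ∀ S' : Finset ℕ, ∃ ℓ : ℕ, ℓ.Prime ∧ ℓ ∉ S' ∧
      ((W.apOfModel ℓ : ℤ) : ZMod p) ≠ ((ℓ : ℕ) : ZMod p) + 1)
    (hunr : ∀ σ ∈ A.inertiaSubgroupIn ℚ, ∀ y : m59mz_Tors W p, σ • y = y)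
    {S' : Finset ℕ} {k : s44e_Sg A M q hq.out hqM → ZMod p}
    {B : Nat.Primes → (s44e_Sg A M q hq.out hqM → ZMod p) →+
      (s44e_Sg A M q hq.out hqM → ZMod p)}
    (hC : twf_CompCells A M hqM p S' k B)
    (ι : m59mz_Tors W p →+ JZero (M * q)) (hι : m59mz_IsCopy p W S (M * q) ι)
    (y : m59mz_Tors W p) : twfr_nu A M q hq.out hqM p (ι y) = 0 := by
  have hp0 : p ≠ 0 := hp.out.ne_zero
  have hpι : ∀ y : m59mz_Tors W p, p • ι y = 0 := fun y => by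
    rw [← map_nsmul, m59mz_tors_smul, _root_.map_zero]
  have hfix : ∀ σ ∈ A.inertiaSubgroupIn ℚ, σ • ι y = ι y := fun σ hσ => by
    rw [← hι.equiv]
    exact congrArg ι (hunr σ hσ y)
  obtain ⟨c, hc⟩ := hC.mono (ι y) (hpι y) hfix
  rcases isEmpty_or_nonempty (s44e_Sg A M q hq.out hqM) with hE | hE
  · funext i
    exact (hE.false i).elim
  obtain ⟨ℓ, hℓ, hℓS, hnd⟩ := hnonEis (S ∪ S' ∪ (M * q).primeFactors)
  have hℓS0 : ℓ ∉ S := fun h => hℓS (Finset.mem_union_left _ (Finset.mem_union_left _ h))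
  have hℓS' : ℓ ∉ S' := fun h => hℓS (Finset.mem_union_left _ (Finset.mem_union_right _ h))
  have hℓN : ¬ ℓ ∣ M * q := fun h =>
    hℓS (Finset.mem_union_right _ (Nat.mem_primeFactors.mpr ⟨hℓ, h, NeZero.ne _⟩))
  have hBr : B ⟨ℓ, hℓ⟩ (twfr_nu A M q hq.out hqM p (ι y)) =
      ((W.apOfModel ℓ : ℤ) : ZMod p) • twfr_nu A M q hq.out hqM p (ι y) := by
    rw [← hC.heckeRes ⟨ℓ, hℓ⟩ hℓN hℓS' (ι y) (hpι y), hι.eigen ⟨ℓ, hℓ⟩ hℓN hℓS0 y,
      twf_nu_zsmul M q hqM A hA hp0 _ (hpι y)]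
    funext i
    show (W.apOfModel ℓ) • twfr_nu A M q hq.out hqM p (ι y) i =
      ((W.apOfModel ℓ : ℤ) : ZMod p) * twfr_nu A M q hq.out hqM p (ι y) i
    rw [zsmul_eq_mul]
  refine (s44i_eis k (fun i => (hC.k_unit i).ne_zero) (B ⟨ℓ, hℓ⟩) (s44i_map_smul _) _
    (hC.B_eis ⟨ℓ, hℓ⟩ hℓN hℓS') (twfr_nu A M q hq.out hqM p (ι y)) c hc _ hBr ?_).2
  exact hnd

include hA in
/-- (Z6) + [LEVEL-δ]: for a copy `ι` with `ν ∘ ι = 0`, either `δ (ι y) = 0` or `Occ M`. -/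
theorem m59mz_delta_zero_or_occ (hLD : m59mz_LevelDelta_stmt) (hqp : q ≠ p) (hpS : p ∈ S)
    (hqS : q ∈ S) (hMS : ∀ ℓ : ℕ, ℓ.Prime → ℓ ∣ M → ℓ ∈ S)
    (hres : twf_ResHecke_stmt A M hqM p)
    (hlin : ∀ z : JZero (M * q), p • z = 0 → twfr_nu A M q hq.out hqM p z = 0 → ∀ n : ℤ,
      twfr_delta A M q p (n • z) = n • twfr_delta A M q p z)
    (ι : m59mz_Tors W p →+ JZero (M * q)) (hι : m59mz_IsCopy p W S (M * q) ι)
    (y : m59mz_Tors W p) (hν : twfr_nu A M q hq.out hqM p (ι y) = 0)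
    (hne : twfr_delta A M q p (ι y) ≠ 0) : m59e_Occ p W S M := by
  have hpι : ∀ y : m59mz_Tors W p, p • ι y = 0 := fun y => by
    rw [← map_nsmul, m59mz_tors_smul, _root_.map_zero]
  refine hLD p W S M q hq.out hqM hqp hpS hqS hMS A hA _ hne
    (twfr_delta_tors A M q p (ι y)) ?_
  intro ℓ hℓM hℓS
  have hℓq : (ℓ : ℕ) ≠ q := fun h => hℓS (h ▸ hqS)
  have hℓN : ¬ (ℓ : ℕ) ∣ M * q := by
    intro h
    rcases (Nat.Prime.dvd_mul ℓ.2).mp h with h1 | h1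
    · exact hℓM h1
    · exact hℓq ((Nat.prime_dvd_prime_iff_eq ℓ.2 hq.out).mp h1)
  have hℓp' : ¬ (ℓ : ℕ) ∣ p := fun h =>
    hℓS (((Nat.prime_dvd_prime_iff_eq ℓ.2 hp.out).mp h) ▸ hpS)
  rw [← hres ℓ hℓN hℓp' (ι y) (hpι y) hν, hι.eigen ℓ hℓN hℓS y, hlin (ι y) (hpι y) hν]

/-- **the geometric core of Mazur's principle**: a copy of a `W[p]` unramified at `q` in
`J₀(M q)`, the cells [GEO] at `(M, q, p)`, and NOT `Occ M` ⟹ every Frobenius element at `q` acts on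
`W[p]` as an integer scalar `c` with `c² = q²`. -/
theorem m59mz_scalar_of_geo (hLD : m59mz_LevelDelta_stmt) (hp2 : p ≠ 2) (hqp : q ≠ p)
    (hirr : W.ModRepIsIrreducible p) (hpS : p ∈ S) (hqS : q ∈ S)
    (hMS : ∀ ℓ : ℕ, ℓ.Prime → ℓ ∣ M → ℓ ∈ S)
    (hnonEis : ∀ S' : Finset ℕ, ∃ ℓ : ℕ, ℓ.Prime ∧ ℓ ∉ S' ∧
      ((W.apOfModel ℓ : ℤ) : ZMod p) ≠ ((ℓ : ℕ) : ZMod p) + 1)
    (hunr : ∀ A : ValuationSubring Qb, A.LiesOverPrime q → ∀ σ ∈ A.inertiaSubgroupIn ℚ,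
      ∀ y : m59mz_Tors W p, σ • y = y)
    (hgeo : m59mz_Geo M hqM p)
    (ι₀ : m59mz_Tors W p →+ JZero (M * q)) (hι₀ : m59mz_IsCopy p W S (M * q) ι₀)
    (hlev : ¬ m59e_Occ p W S M) :
    ∀ A : ValuationSubring Qb, A.LiesOverPrime q → ∀ φ : GQ, A.IsFrobeniusAt φ q →
      ∃ c : ℤ, ((c : ℤ) : ZMod p) ^ 2 = ((q : ℕ) : ZMod p) ^ 2 ∧
        ∀ x : m59mz_Tors W p, φ • x = c • x := by
  obtain ⟨ε, ι, hε, hι, hW⟩ := m59mz_w_copy M q hq.out hqM hp2 hirr ι₀ hι₀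
  have hpι : ∀ y : m59mz_Tors W p, p • ι y = 0 := fun y => by
    rw [← map_nsmul, m59mz_tors_smul, _root_.map_zero]
  intro A hA φ hφ
  obtain ⟨⟨S', k, B, hC⟩, hres, ⟨s, hs, htW⟩, hlin⟩ := hgeo A hA
  have hfix : ∀ x, ∀ σ ∈ A.inertiaSubgroupIn ℚ, σ • ι x = ι x := fun x σ hσ => by
    rw [← hι.equiv]
    exact congrArg ι (hunr A hA σ hσ x)
  have hν : ∀ x, twfr_nu A M q hq.out hqM p (ι x) = 0 := fun x =>
    m59mz_nu_zero M q hqM A hA hnonEis (hunr A hA) hC ι hι x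
  have hδ : ∀ x, twfr_delta A M q p (ι x) = 0 := fun x => by
    by_contra hne
    exact hlev (m59mz_delta_zero_or_occ M q hqM A hA hLD hqp hpS hqS hMS hres hlin ι hι x
      (hν x) hne)
  have hWι : ∀ x, s44w_WJ M q hq.out hqM (ι x) = ι x ∨ s44w_WJ M q hq.out hqM (ι x) = -ι x := by
    intro x
    rcases hε with rfl | rfl
    · left; rw [hW x, one_smul]
    · right; rw [hW x, neg_one_smul]
  refine ⟨s * q * ε, ?_, fun x => ?_⟩
  · rcases hs with rfl | rfl <;> rcases hε with rfl | rfl <;> push_cast <;> ring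
  · have h := htW φ hφ (ι x) (hpι x) (hfix x) (hWι x) (hν x) (hδ x)
    apply hι.inj
    rw [hι.equiv, h, hW x, map_zsmul, smul_smul]

end Geo

/-! ### the endgame: from `W[p]` to `ρ̄` -/

section Endgame

variable {p : ℕ} [hp : Fact p.Prime] {W : WeierstrassCurve ℤ}

/-- `det ρ̄(φ) = q` for a Frobenius element `φ` at `q ≠ p`, from `DetIsCyclotomic`. -/
theorem m59mz_det_frob {𝒪 : Type} [CommRing 𝒪] [IsLocalRing 𝒪] (ρ : GaloisRepAdic 𝒪)
    (hdet : ρ.DetIsCyclotomic p) {q : ℕ} (hq : q.Prime) (hqp : q ≠ p)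
    (A : ValuationSubring Qb) (hA : A.LiesOverPrime q) (φ : GQ) (hφ : A.IsFrobeniusAt φ q) :
    LinearMap.det (ρ.residual.ρ φ) = ((q : ℕ) : ResidueField 𝒪) := by
  have h := hdet.2 1 φ q (fun μ hμ => cya_frob_rootsOfUnity p hq hqp A hA φ hφ 1 hμ)
  rw [s58top_residual_det]
  have h1 : residue 𝒪 (LinearMap.det (ρ.ρ φ) - (q : 𝒪)) = 0 := by
    rw [residue_eq_zero_iff]
    have hsub : Ideal.span {((p ^ 1 : ℕ) : 𝒪)} ≤ maximalIdeal 𝒪 := by
      rw [Ideal.span_singleton_le_iff_mem, pow_one]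
      exact hdet.1
    exact hsub h
  rw [map_sub, map_natCast, sub_eq_zero] at h1
  exact h1

/-- `ρ̄` unramified at `q` ⟹ `W[p]` unramified at `q`. -/
theorem m59mz_unr_of_link {k : Type} [Field k] (ρbar : ResidualGaloisRep k)
    (f : m59mz_Tors W p →+ ρbar.V) (hf : Function.Injective f)
    (hfe : ∀ (σ : GQ) (x : m59mz_Tors W p), f (σ • x) = ρbar.ρ σ (f x))
    {q : ℕ} (hunr : ρbar.IsUnramifiedAt q) :
    ∀ A : ValuationSubring Qb, A.LiesOverPrime q → ∀ σ ∈ A.inertiaSubgroupIn ℚ,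
      ∀ y : m59mz_Tors W p, σ • y = y := by
  intro A hA σ hσ y
  apply hf
  rw [hfe, hunr A hA σ hσ]
  rfl

/-- `W[p]` unramified at `q` ⟹ `ρ̄` unramified at `q`. -/
theorem m59mz_link_unr {k : Type} [Field k] (ρbar : ResidualGaloisRep k)
    (habs : ρbar.IsAbsolutelyIrreducible) [Nontrivial (m59mz_Tors W p)]
    (f : m59mz_Tors W p →+ ρbar.V) (hf : Function.Injective f)
    (hfe : ∀ (σ : GQ) (x : m59mz_Tors W p), f (σ • x) = ρbar.ρ σ (f x))
    {q : ℕ} (h : ∀ A : ValuationSubring Qb, A.LiesOverPrime q → ∀ σ ∈ A.inertiaSubgroupIn ℚ,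
      ∀ y : m59mz_Tors W p, σ • y = y) : ρbar.IsUnramifiedAt q := by
  intro A hA σ hσ
  refine m59mz_link_ext ρbar habs f hf hfe _ _ (fun x => ?_)
  rw [← hfe, h A hA σ hσ x]
  rfl

/-- the scalar case: if every Frobenius element at `q` acts on `W[p]` as an integer scalar `c` with
`c² = q²`, then `q` is hard for `ρ̄`. -/
theorem m59mz_hard_of_scalar {𝒪 : Type} [CommRing 𝒪] [IsLocalRing 𝒪]
    (hp𝒪 : (p : 𝒪) ∈ maximalIdeal 𝒪) (ρ : GaloisRepAdic 𝒪) (hdet : ρ.DetIsCyclotomic p)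
    (habs : ρ.residual.IsAbsolutelyIrreducible) [Nontrivial (m59mz_Tors W p)]
    (hlink : m59mz_IsLink p W ρ.residual) {q : ℕ} (hq : q.Prime) (hqp : q ≠ p)
    (h : ∀ A : ValuationSubring Qb, A.LiesOverPrime q → ∀ φ : GQ, A.IsFrobeniusAt φ q →
      ∃ c : ℤ, ((c : ℤ) : ZMod p) ^ 2 = ((q : ℕ) : ZMod p) ^ 2 ∧
        ∀ x : m59mz_Tors W p, φ • x = c • x) :
    m59m_IsHard p ρ.residual q := by
  haveI hchar : CharP (ResidueField 𝒪) p := m59mz_charP_residue p hp𝒪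
  obtain ⟨f, hf, hfe⟩ := hlink
  have hscal : ∀ (φ : GQ) (c : ℤ), (∀ x : m59mz_Tors W p, φ • x = c • x) →
      ρ.residual.ρ φ =
        ((c : ℤ) : ResidueField 𝒪) • (1 : Module.End (ResidueField 𝒪) ρ.residual.V) := by
    intro φ c hc
    refine m59mz_link_ext ρ.residual habs f hf hfe _ _ (fun x => ?_)
    rw [← hfe, hc x, map_zsmul, LinearMap.smul_apply, Module.End.one_apply,
      Int.cast_smul_eq_zsmul]
  refine ⟨?_, fun A hA φ hφ => ?_⟩
  · obtain ⟨A, hA⟩ := twf_exists_place q hq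
    obtain ⟨φ, hφ⟩ := fex_exists_isFrobeniusAt hq A hA
    obtain ⟨c, hc2, hc⟩ := h A hA φ hφ
    have h1 := m59mz_det_frob ρ hdet hq hqp A hA φ hφ
    rw [hscal φ c hc, LinearMap.det_smul, ρ.residual.finrank_eq, map_one, mul_one] at h1
    have h2 := congrArg (ZMod.castHom (dvd_refl p) (ResidueField 𝒪)) hc2
    rw [map_pow, map_pow, map_intCast, map_natCast] at h2
    have hq0 : ((q : ℕ) : ResidueField 𝒪) ≠ 0 := by
      intro h0
      rw [CharP.cast_eq_zero_iff (ResidueField 𝒪) p] at h0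
      exact hqp ((Nat.prime_dvd_prime_iff_eq hp.out hq).mp h0).symm
    have h3 : ((q : ℕ) : ResidueField 𝒪) = 1 := by
      have : ((q : ℕ) : ResidueField 𝒪) * ((q : ℕ) : ResidueField 𝒪) =
          ((q : ℕ) : ResidueField 𝒪) * 1 := by
        rw [mul_one, ← pow_two, ← h2, h1]
      exact mul_left_cancel₀ hq0 this
    have h4 : ((q : ℕ) : ResidueField 𝒪) = ((1 : ℕ) : ResidueField 𝒪) := by
      rw [h3, Nat.cast_one]
    have h5 := (CharP.natCast_eq_natCast (ResidueField 𝒪) p).mp h4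
    rw [h5]
    exact Nat.mod_eq_of_lt hp.out.one_lt
  · obtain ⟨c, -, hc⟩ := h A hA φ hφ
    exact ⟨_, hscal φ c hc⟩

end Endgame

/-! ### Mazur's principle from the cells -/

/-- `N = (N / q) q`, `q ∤ N / q` for a squarefree `N`. -/
theorem m59mz_split {N q : ℕ} (hsq : Squarefree N) (hq : q.Prime) (hqN : q ∣ N) :
    N = N / q * q ∧ ¬ q ∣ N / q ∧ N / q ≠ 0 := by
  obtain ⟨M, rfl⟩ := hqN
  have hM : q * M / q = M := Nat.mul_div_cancel_left M hq.pos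
  rw [hM]
  refine ⟨mul_comm q M, ?_, ?_⟩
  · rintro ⟨c, rfl⟩
    exact hq.one_lt.ne' (Nat.isUnit_iff.mp (hsq q ⟨c, by ring⟩))
  · rintro rfl
    exact hsq.ne_zero (mul_zero q)

/-- **one step**: the cells [GEO] at `(M, q, p)` lower the level from `M q` to `M`. -/
theorem m59mz_lower_of_geo (hLD : m59mz_LevelDelta_stmt) (hCopy : m59mz_Copy_stmt)
    (p : ℕ) [Fact p.Prime] (hp35 : p = 3 ∨ p = 5) (W : WeierstrassCurve ℤ) (hΔ : W.Δ ≠ 0)
    (hirr : W.ModRepIsIrreducible p)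
    (𝒪 : Type) [CommRing 𝒪] [IsDomain 𝒪] [IsDiscreteValuationRing 𝒪]
    [IsAdicComplete (maximalIdeal 𝒪) 𝒪] [Finite (ResidueField 𝒪)] [CharZero 𝒪]
    (hp𝒪 : (p : 𝒪) ∈ maximalIdeal 𝒪) (ρ : GaloisRepAdic 𝒪) (hT : m59e_IsTate p W ρ)
    (hlink : m59mz_IsLink p W ρ.residual) (S : Finset ℕ) (hS : m59e_IsBadSet W p S)
    (M q : ℕ) [NeZero M] [NeZero q] [NeZero (M * q)] [hq : Fact q.Prime] (hqM : ¬ q ∣ M)
    (hqp : q ≠ p) (hNS : ∀ ℓ : ℕ, ℓ.Prime → ℓ ∣ M * q → ℓ ∈ S)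
    (hunr : ρ.residual.IsUnramifiedAt q) (hhard : ¬ m59m_IsHard p ρ.residual q)
    (hgeo : m59mz_Geo M hqM p) (hocc : m59e_Occ p W S (M * q)) : m59e_Occ p W S M := by
  by_contra hlev
  obtain ⟨ι₀, hι₀⟩ := hCopy p hp35 W hΔ hirr 𝒪 hp𝒪 ρ hT S (M * q) hS hNS hocc
  haveI : Nontrivial (m59mz_Tors W p) := hirr.1
  obtain ⟨f, hf, hfe⟩ := hlink
  have hp2 : p ≠ 2 := by rcases hp35 with rfl | rfl <;> norm_num
  have hqS : q ∈ S := hNS q hq.out (dvd_mul_left q M)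
  have hMS : ∀ ℓ : ℕ, ℓ.Prime → ℓ ∣ M → ℓ ∈ S := fun ℓ hℓ h =>
    hNS ℓ hℓ (dvd_mul_of_dvd_left h q)
  have hsc := m59mz_scalar_of_geo M q hqM hLD hp2 hqp hirr hS.1 hqS hMS (m59mz_nonEis hp𝒪 hT)
    (m59mz_unr_of_link ρ.residual f hf hfe hunr) hgeo ι₀ hι₀ hlev
  exact hhard (m59mz_hard_of_scalar hp𝒪 ρ hT.det hT.irr ⟨f, hf, hfe⟩ hq.out hqp hsc)

/-- **[MAZUR] from its cells.** -/
theorem m59mz_mazur_of (hIrr : m59e_IrrW_stmt) (hLink : m59e_Link_stmt)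
    (hCopy : m59mz_Copy_stmt) (hLD : m59mz_LevelDelta_stmt) (hJU : m59mz_JUnr_stmt)
    (hGO : m59mz_GeoOdd_stmt) (hG25 : m59mz_GeoTwoFive_stmt) (h32 : m59mz_ThreeTwo_stmt) :
    m59m_Mazur_stmt := by
  intro p _ hp W hΔ hW 𝒪 _ _ _ _ _ _ hp𝒪 ρ hT S N q hS h2S hsq hNS hq hqp hqN hgood hunr hhard
    hocc
  have hirr : W.ModRepIsIrreducible p := hIrr p hp W hΔ hW 𝒪 hp𝒪 ρ hT
  have hlink : m59mz_IsLink p W ρ.residual := hLink p hp W hΔ hW 𝒪 hp𝒪 ρ hT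
  -- the generic step at a squarefree level `N'` divisible by `q`
  have step : ∀ N' : ℕ, Squarefree N' → (∀ ℓ : ℕ, ℓ.Prime → ℓ ∣ N' → ℓ ∈ S) → q ∣ N' →
      (∀ (M : ℕ) [NeZero M] [NeZero q] [NeZero (M * q)] [Fact q.Prime] (hqM : ¬ q ∣ M),
        N' = M * q → m59mz_Geo M hqM p) →
      m59e_Occ p W S N' → m59e_Occ p W S (N' / q) := by
    intro N' hsq' hNS' hqN' hgeo hocc'
    obtain ⟨h1, hqM, hM0⟩ := m59mz_split hsq' hq hqN'
    haveI : NeZero (N' / q) := ⟨hM0⟩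
    haveI : NeZero q := ⟨hq.ne_zero⟩
    haveI : NeZero (N' / q * q) := ⟨by rw [← h1]; exact hsq'.ne_zero⟩
    haveI : Fact q.Prime := ⟨hq⟩
    exact m59mz_lower_of_geo hLD hCopy p hp W hΔ hirr 𝒪 hp𝒪 ρ hT hlink S hS (N' / q) q hqM hqp
      (fun ℓ hℓ h => hNS' ℓ hℓ (by rw [h1]; exact h)) hunr hhard (hgeo (N' / q) hqM h1)
      (by rw [← h1]; exact hocc')
  by_cases hq2 : q = 2
  · rcases hp with rfl | rfl
    · -- `(p, q) = (3, 2)`
      subst hq2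
      exact h32 W hΔ hW 𝒪 hp𝒪 ρ hT S N hS h2S hsq hNS hqN hgood hunr hocc
    · -- `(p, q) = (5, 2)`
      exact step N hsq hNS hqN (fun M _ _ _ _ hqM _ => hG25 M q hqM hq2) hocc
  · by_cases hcase : p = 5 ∨ 2 ∣ N
    · refine step N hsq hNS hqN (fun M _ _ _ _ hqM hNM =>
        hGO M q hqM p hq2 hp (Ne.symm hqp) (fun hp3 => ?_)) hocc
      rcases hcase with h5 | h2N
      · omega
      · rw [hNM] at h2N
        rcases (Nat.Prime.dvd_mul Nat.prime_two).mp h2N with h | h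
        · exact h
        · exact absurd ((Nat.prime_dvd_prime_iff_eq Nat.prime_two hq).mp h).symm hq2
    · -- `p = 3`, `N` odd, `q` odd: detour through the level `2 N`
      push Not at hcase
      obtain ⟨hp5, h2N⟩ := hcase
      have hp3 : p = 3 := hp.resolve_right hp5
      subst hp3
      have hNpos : 0 < N := Nat.pos_of_ne_zero hsq.ne_zero
      have hsq2 : Squarefree (2 * N) := by
        rw [Nat.squarefree_mul_iff]
        exact ⟨(Nat.Prime.coprime_iff_not_dvd Nat.prime_two).mpr h2N,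
          Nat.prime_two.prime.squarefree, hsq⟩
      have hNS2 : ∀ ℓ : ℕ, ℓ.Prime → ℓ ∣ 2 * N → ℓ ∈ S := by
        intro ℓ hℓ h
        rcases (Nat.Prime.dvd_mul hℓ).mp h with h | h
        · rw [(Nat.prime_dvd_prime_iff_eq hℓ Nat.prime_two).mp h]
          exact h2S
        · exact hNS ℓ hℓ h
      have hocc2 : m59e_Occ 3 W S (2 * N) :=
        m59e_occ_mono 3 W S (dvd_mul_left N 2) (by positivity) hNS2 hocc
      have hocc3 : m59e_Occ 3 W S (2 * N / q) := by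
        refine step (2 * N) hsq2 hNS2 (dvd_mul_of_dvd_right hqN 2) (fun M _ _ _ _ hqM hNM =>
          hGO M q hqM 3 hq2 hp (Ne.symm hqp) (fun _ => ?_)) hocc2
        have h2 : 2 ∣ M * q := ⟨N, hNM.symm⟩
        rcases (Nat.Prime.dvd_mul Nat.prime_two).mp h2 with h | h
        · exact h
        · exact absurd ((Nat.prime_dvd_prime_iff_eq Nat.prime_two hq).mp h).symm hq2
      have e : 2 * N / q = 2 * (N / q) := Nat.mul_div_assoc 2 hqN
      rw [e] at hocc3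
      have hdiv : 2 * (N / q) / 2 = N / q := Nat.mul_div_cancel_left _ (by norm_num)
      have hdvd : 2 * (N / q) ∣ 2 * N := Nat.mul_dvd_mul_left 2 (Nat.div_dvd_of_dvd hqN)
      rw [← hdiv]
      refine h32 W hΔ hW 𝒪 hp𝒪 ρ hT S (2 * (N / q)) hS h2S (hsq2.squarefree_of_dvd hdvd)
        (fun ℓ hℓ h => hNS2 ℓ hℓ (dvd_trans h hdvd)) (dvd_mul_right 2 _) ?_ ?_ hocc3
      · intro hg h3
        apply hgood hg
        rcases (Nat.Prime.dvd_mul Nat.prime_three).mp h3 with h | h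
        · exact absurd (Nat.le_of_dvd (by norm_num) h) (by norm_num)
        · exact dvd_trans h (Nat.div_dvd_of_dvd hqN)
      · -- `ρ̄` is unramified at `2`: [COPY] at the odd level `N`, [J-UNR], [LINK]
        haveI : NeZero N := ⟨hsq.ne_zero⟩
        obtain ⟨ι, hι⟩ := hCopy 3 hp W hΔ hirr 𝒪 hp𝒪 ρ hT S N hS hNS hocc
        obtain ⟨f, hf, hfe⟩ := hlink
        haveI : Nontrivial (m59mz_Tors W 3) := hirr.1
        refine m59mz_link_unr ρ.residual hT.irr f hf hfe (fun A hA σ hσ y => ?_)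
        apply hι.inj
        rw [hι.equiv]
        exact hJU N 2 3 Nat.prime_two Nat.prime_three h2N (by norm_num) A hA σ hσ (ι y)
          (by rw [← map_nsmul, m59mz_tors_smul, _root_.map_zero])

end Fermat.Agent.M59
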