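/-
M59 / box [C + S38g], cell [MAZUR] (helper16).  Prefix `m59mz_`.

The cells of `M59/Mazur/Seams.lean` which are closed FROM MAIN, and the wiring with fewer leaves:

* `m59mz_jUnr`      : [J-UNR] `m59mz_JUnr_stmt`  (`est_unramified` + node E + S18, all on main);
* `m59mz_geo_five`  : [GEO] at `p = 5`, `q` odd, any level (`twf_compAll`, `twf_resHeckeAll`,
                      `twfj_toricWAll`, `twf_delta_zsmul`: the landed cells of S43's block [F]);
* `m59mz_GeoThreeEven_stmt` : [GEO] at `p = 3`, `q` odd, EVEN level `M` (the only open part of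
                      `m59mz_GeoOdd_stmt`), `m59mz_geoOdd_of`;
* `m59mz_mazur_of2 : m59mz_Copy_stmt → m59mz_LevelDelta_stmt → m59mz_GeoThreeEven_stmt →
      m59mz_GeoTwoFive_stmt → m59mz_ThreeTwo_stmt → m59m_Mazur_stmt`
  ([IRR-W], [LINK] closed by helper2's `m59lg_irrW`, `m59lg_link`).
-/
import Mathlib
import Fermat.Agent.M59.Mazur.Seams
import Fermat.Agent.M59.LG.Link
import Fermat.Agent.TW.Easy.Asm.Mazur

set_option autoImplicit false
set_option linter.unusedSectionVars false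
set_option linter.unusedVariables false
set_option linter.style.haveILetI false
set_option synthInstance.maxHeartbeats 400000
set_option maxHeartbeats 1000000

noncomputable section

namespace Fermat.Agent.M59

open WeierstrassCurve WeierstrassCurve.Affine WeierstrassCurve.Affine.Point
open ModularCurve AlgebraicCurve IsLocalRing Polynomial CuspForm
open Fermat.Agent.JT3 Fermat.Agent.S35 Fermat.Agent.SS Fermat.Agent.S24 Fermat.Agent.S44
  Fermat.Agent.S43 Fermat.Agent.MZ Fermat.Agent.TW Fermat.Agent.S58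

local notation "Qb" => AlgebraicClosure ℚ
local notation "GQ" => (AlgebraicClosure ℚ ≃ₐ[ℚ] AlgebraicClosure ℚ)

/-- **[J-UNR]** is on main. -/
theorem m59mz_jUnr : m59mz_JUnr_stmt := by
  intro N q p _ hq hp hqN hqp A hA σ hσ z hz
  refine est_unramified N p (tji_nodeE N) (tji_S18 N) q hq ?_ A hA σ hσ z
    ⟨1, by rwa [pow_one]⟩
  intro h
  rcases (Nat.Prime.dvd_mul hq).mp h with h | h
  · exact hqN h
  · exact hqp ((Nat.prime_dvd_prime_iff_eq hq hp).mp h)

/-- **[GEO] at `p = 5`, `q` odd** is on main (the landed cells of S43's block [F]). -/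
theorem m59mz_geo_five (M q : ℕ) [NeZero M] [NeZero q] [NeZero (M * q)] [hq : Fact q.Prime]
    (hqM : ¬ q ∣ M) (hq2 : q ≠ 2) (h5q : 5 ≠ q) : m59mz_Geo M hqM 5 := by
  intro A hA
  refine ⟨twf_compAll M q hqM 5 hq2 (by norm_num) le_rfl h5q A hA,
    twf_resHeckeAll M q hqM 5 hq2 (by norm_num) le_rfl h5q A hA,
    twfj_toricWAll M q hqM 5 hq2 (by norm_num) le_rfl h5q A hA, ?_⟩
  intro z hz hν n
  exact twf_delta_zsmul M q hqM A hA hq2 (by norm_num : (5 : ℕ) ≠ 0)
    (by norm_num : Nat.Coprime 5 6) z hz hν n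

/-- **[GEO], `q` odd, `p = 3`, EVEN level**: the even-level twins of (Z3)+(Z4) with the recut
weights `k_Q = e_Q ∈ {1, 2}`, of (Z6), (Z8), and of the linearity of `δ`. -/
def m59mz_GeoThreeEven_stmt : Prop :=
  ∀ (M q : ℕ) [NeZero M] [NeZero q] [NeZero (M * q)] [Fact q.Prime] (hqM : ¬ q ∣ M),
    q ≠ 2 → 3 ≠ q → 2 ∣ M → m59mz_Geo M hqM 3

theorem m59mz_geoOdd_of (h3 : m59mz_GeoThreeEven_stmt) : m59mz_GeoOdd_stmt := by
  intro M q _ _ _ _ hqM p hq2 hp hpq h2M
  rcases hp with rfl | rfl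
  · exact h3 M q hqM hq2 hpq (h2M rfl)
  · exact m59mz_geo_five M q hqM hq2 hpq

/-- **[MAZUR] from its open cells** ([IRR-W], [LINK], [J-UNR], [GEO] at `p = 5`, `q` odd: closed). -/
theorem m59mz_mazur_of2 (hCopy : m59mz_Copy_stmt) (hLD : m59mz_LevelDelta_stmt)
    (hG3 : m59mz_GeoThreeEven_stmt) (hG25 : m59mz_GeoTwoFive_stmt)
    (h32 : m59mz_ThreeTwo_stmt) : m59m_Mazur_stmt :=
  m59mz_mazur_of m59lg_irrW m59lg_link hCopy hLD m59mz_jUnr (m59mz_geoOdd_of hG3) hG25 h32

end Fermat.Agent.M59
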