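/-
M59 / box [C + S38g], cell [MAZUR], sub-cell [COPY] (helper16).  Prefix `m59mz_`.

**`m59mz_copy : m59mz_Copy_stmt`** (CLOSED): Boston–Lenstra–Ribet in `Occ` form.  From
`m59e_Occ p W S N` (an eigensystem `θ` of level `N` away from `S` with `θ(T_ℓ) = a_ℓ(W)`), `W[p]`
irreducible and the package `m59e_IsTate p W ρ` (only `frobRes` is used): an injective
`G_ℚ`-equivariant additive map `ι : W[p](ℚ̄) → J₀(N)(ℚ̄)` with `T_ℓ ∘ ι = a_ℓ(W) ι` for `ℓ ∤ N`, `ℓ ∉ S`.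

Frey-free twin of `s44b_blr_of` (S44/BLR/MainOf.lean) with the set `S` GIVEN:
* the eigenform: `twfx_lift` (Deligne–Serre lifting for the Prelude's Hecke algebra);
* the nonzero eigenpoint: `s44b_exists_eigenpoint` (already stated for an arbitrary `S`);
* the E-side: `s44be_trace_det_abs` fed with `ρ.residual` and `m59e_IsTate.frobRes` (no eigenform at
  the primes of `S` is needed), `s44be_det_conj`, `s44be_span_of_det`;
* Cayley–Hamilton on `M_E`: `s44b_hCH`; the embedding: `s44bm_copy`.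
-/
import Mathlib
import Fermat.Agent.M59.Mazur.Seams
import Fermat.Agent.TW.Easy.Exit
import Fermat.Agent.S44.BLR.Main

set_option autoImplicit false
set_option linter.unusedSectionVars false
set_option linter.unusedVariables false
set_option linter.style.haveILetI false
set_option synthInstance.maxHeartbeats 400000
set_option maxHeartbeats 1000000

noncomputable section

namespace Fermat.Agent.M59

open WeierstrassCurve WeierstrassCurve.Affine WeierstrassCurve.Affine.Point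
open ModularCurve IsLocalRing Polynomial CuspForm
open Fermat.Agent.JT3 Fermat.Agent.S58 Fermat.Agent.LR Fermat.Agent.S13 Fermat.Agent.S44
  Fermat.Agent.TW
open scoped WeierstrassCurve.Affine

local notation "Qb" => AlgebraicClosure ℚ
local notation "GQ" => (AlgebraicClosure ℚ ≃ₐ[ℚ] AlgebraicClosure ℚ)

/-- **[COPY]**, closed. -/
theorem m59mz_copy : m59mz_Copy_stmt := by
  classical
  intro p _ hp35 W hΔ hirr 𝒪 _ _ _ _ _ _ hp𝒪 ρ hT S N _ hS hNS hocc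
  have hpp : p.Prime := Fact.out
  have hp2 : p ≠ 2 := by rcases hp35 with rfl | rfl <;> norm_num
  have hN0 : N ≠ 0 := NeZero.ne N
  obtain ⟨_, k, _, _, θ, hθ⟩ := hocc
  set a : ℕ → ℤ := fun ℓ => W.apOfModel ℓ with ha
  -- the eigenform
  obtain ⟨f, 𝔪, hf, h𝔪, hp𝔪, hcong⟩ := twfx_lift hpp (↑S : Set ℕ) θ a
    (fun ℓ hℓ hℓN hℓS => hθ ℓ hℓ hℓN hℓS)
  -- the nonzero eigenpoint
  obtain ⟨z, hz0, hpz, hTz⟩ := s44b_exists_eigenpoint N p S hNS hf 𝔪 h𝔪 hp𝔪 a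
    (fun ℓ hℓ hℓN hℓS => hcong ℓ hℓ hℓN (fun h => hℓS (Finset.mem_coe.mp h)))
  haveI : Nontrivial ↥(s44b_ME N p S a) :=
    ⟨⟨⟨z, hpz, hTz⟩, 0, fun h => hz0 (congrArg Subtype.val h)⟩⟩
  -- the E-side from `frobRes`
  haveI hchar : CharP (ResidueField 𝒪) p := m59mz_charP_residue p hp𝒪
  letI : Algebra (ZMod p) (ResidueField 𝒪) := ZMod.algebra _ p
  have hfrobAll : ∀ ℓ : ℕ, ℓ.Prime → W.IsGoodPrimeFor ℓ → ¬ ℓ ∣ N → ℓ ≠ p →
      ∀ A : ValuationSubring Qb, A.LiesOverPrime ℓ → ∀ τ : GQ, A.IsFrobeniusAt τ ℓ →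
        LinearMap.trace (ZMod p) _ (galoisRepModuleEnd (K := Qb) ℚ (s58_WQ W) p τ) =
            ((W.apOfModel ℓ : ℤ) : ZMod p) ∧
          LinearMap.det (galoisRepModuleEnd (K := Qb) ℚ (s58_WQ W) p τ) =
            ((ℓ : ℕ) : ZMod p) := by
    intro ℓ hℓ hgood hℓN hℓp A hA τ hτ
    refine s44be_trace_det_abs W hΔ p hp2 hirr N hN0 ρ.residual ?_ ℓ hℓ hgood hℓN hℓp A hA τ hτ
    intro ℓ' hℓ' hg' _ hℓp' A' hA' τ' hτ'
    have e1 : algebraMap (ZMod p) (ResidueField 𝒪) ((W.apOfModel ℓ' : ℤ) : ZMod p) =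
        ((W.apOfModel ℓ' : ℤ) : ResidueField 𝒪) := map_intCast _ _
    have e2 : algebraMap (ZMod p) (ResidueField 𝒪) ((ℓ' : ℕ) : ZMod p) =
        ((ℓ' : ℕ) : ResidueField 𝒪) := map_natCast _ _
    rw [e1, e2]
    exact hT.frobRes ℓ' hℓ' hℓp' hg' A' hA' τ' hτ'
  have hdetc := s44be_det_conj W hΔ p hp2 N hN0
    (fun ℓ hℓ hg hℓN hℓp A hA τ hτ => (hfrobAll ℓ hℓ hg hℓN hℓp A hA τ hτ).2)
  have hspan := s44be_span_of_det W hΔ p hp2 hirr complexConjugation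
    complexConjugation_mul_self hdetc
  have hbad : ∀ ℓ : ℕ, ℓ.Prime → ℓ ∉ S → W.IsGoodPrimeFor ℓ ∧ ℓ ≠ p := by
    intro ℓ hℓ hℓS
    refine ⟨?_, fun h => hℓS (h ▸ hS.1)⟩
    by_contra h
    exact hℓS (hS.2 ℓ hℓ h)
  have hΔQ : ((s58_WQ W)⁄s58_Qb).Δ ≠ 0 := by
    show ((W.map (Int.castRingHom ℚ)).map (algebraMap ℚ s58_Qb)).Δ ≠ 0
    rw [WeierstrassCurve.map_Δ, WeierstrassCurve.map_Δ]
    simpa using hΔ
  have hodd : Odd p := hpp.odd_of_ne_two hp2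
  haveI : Finite (Submodule.torsionBy ℤ ((s58_WQ W)⁄s58_Qb).Point p) :=
    ld_finite_torsionBy (s58_WQ W) hΔQ hodd
  have hlevV : GaloisFactorsThroughFiniteLevel
      (galoisRepModuleEnd (K := s58_Qb) ℚ (s58_WQ W) p) := prs_torsion_level (s58_WQ W) p
  have hCH := s44b_hCH (N := N) (p := p) (S := S) (a := a) hS.1 hNS
    (galoisRepModuleEnd (K := s58_Qb) ℚ (s58_WQ W) p) hlevV
    (fun ℓ hℓ hℓN hℓS A hA τ hτ =>
      hfrobAll ℓ hℓ (hbad ℓ hℓ hℓS).1 hℓN (hbad ℓ hℓ hℓS).2 A hA τ hτ)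
  have hfr : Module.finrank (ZMod p) (Submodule.torsionBy ℤ ((s58_WQ W)⁄s58_Qb).Point p) = 2 :=
    ld_finrank_torsionBy (K := s58_Qb) (s58_WQ W) hΔQ hp2
  haveI : Module.Finite (ZMod p) (Submodule.torsionBy ℤ ((s58_WQ W)⁄s58_Qb).Point p) :=
    Module.finite_of_finrank_pos (by rw [hfr]; norm_num)
  obtain ⟨j, hjinj, hjeq⟩ := s44bm_copy
    (Module.finBasisOfFinrankEq (ZMod p) _ hfr)
    (galoisRepModuleEnd (K := s58_Qb) ℚ (s58_WQ W) p) (s44b_alpha N p S a) hspan hCH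
  refine ⟨(s44b_ME N p S a).subtype.comp j.toAddMonoidHom, ?_, ?_, ?_⟩
  · intro x y hxy
    apply hjinj
    apply Subtype.ext
    exact hxy
  · intro σ x
    show ((j (σ • x) : ↥(s44b_ME N p S a)) : JZero N) =
      σ • ((j x : ↥(s44b_ME N p S a)) : JZero N)
    rw [← s44b_alpha_apply, ← hjeq]
    rfl
  · intro ℓ hℓN hℓS x
    exact (j x).2.2 ℓ ℓ.2 hℓN hℓS

end Fermat.Agent.M59
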