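/-
M59 / box [C + S38g], cell [MAZUR], sub-cell [LEVEL-δ] (helper16).  Prefix `m59mz_`.

**`m59mz_levelDelta : m59mz_LevelDelta_stmt`** (CLOSED): `A` over `q ∤ M`, `q ≠ p`; a nonzero class
`δ ∈ Pic⁰(F̃_M / k_A)[p]` with `T̃_ℓ δ = a_ℓ(W) δ` for the primes `ℓ ∤ M`, `ℓ ∉ S` (`S ∋ p, q` and the
primes of `M`) gives `m59e_Occ p W S M`.

Frey-free twin of `s44c_level_of_dens` (S44/Old0/Dens.lean, the Nakayama glue) and of
`twf_level_of_delta` (TW/Easy/LevelOfDelta.lean), with the index set `{ℓ ∤ M, ℓ ∉ S}` and the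
eigencharacter `twfe_exists_theta` in place of the packaging `P.ModularRepOfLevel M`.

* `m59mz_occ_of_dens` : the Nakayama glue in `Occ` form;
* `m59mz_levelDelta`  : [LEVEL-δ].
-/
import Mathlib
import Fermat.Agent.M59.Mazur.Seams
import Fermat.Agent.TW.Easy.LevelOfDelta
import Fermat.Agent.TW.Easy.EntryTheta

set_option autoImplicit false
set_option linter.unusedSectionVars false
set_option linter.unusedVariables false
set_option linter.style.haveILetI false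
set_option synthInstance.maxHeartbeats 400000
set_option maxHeartbeats 1000000

noncomputable section

namespace Fermat.Agent.M59

open CongruenceSubgroup ModularCurve AlgebraicCurve
open WeierstrassCurve
open Fermat.Agent.JT3 Fermat.Agent.S24 Fermat.Agent.S35 Fermat.Agent.S44 Fermat.Agent.MZ
  Fermat.Agent.TW

local notation "Qb" => AlgebraicClosure ℚ
local notation "GQ" => (AlgebraicClosure ℚ ≃ₐ[ℚ] AlgebraicClosure ℚ)

/-- **(CHAR-N) in `Occ` form**: the Nakayama glue of `s44c_level_of_dens` for the index set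
`{ℓ ∤ M, ℓ ∉ S}`. -/
theorem m59mz_occ_of_dens (p : ℕ) [hp : Fact p.Prime] (W : WeierstrassCurve ℤ) (S : Finset ℕ)
    (M : ℕ) [NeZero M] (hMS : ∀ ℓ : ℕ, ℓ.Prime → ℓ ∣ M → ℓ ∈ S)
    {V : Type*} [AddCommGroup V]
    (red : JZero M →+ V) (t : Nat.Primes → V →+ V)
    (hred : ∀ ℓ : Nat.Primes, ¬ (ℓ : ℕ) ∣ M → (ℓ : ℕ) ∉ S →
      ∀ z : JZero M, red (heckeOperatorBar M ℓ z) = t ℓ (red z))
    (hdens : ∀ (Qe : JZero M →+ JZero M) (Qr : V →+ V),
      (∀ (σ : GQ) (x : JZero M), Qe (σ • x) = σ • Qe x) →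
      (∀ x : JZero M, red (Qe x) = Qr (red x)) →
      (∀ x : JZero M, (∃ n : ℕ, p ^ n • x = 0) → Qe x = 0) →
      ∀ y : JZero M, p • red y = 0 → Qr (red y) = 0)
    (δ : V) (hδ0 : δ ≠ 0) (hpδ : p • δ = 0)
    (hδ : ∀ ℓ : Nat.Primes, ¬ (ℓ : ℕ) ∣ M → (ℓ : ℕ) ∉ S → t ℓ δ = (W.apOfModel ℓ) • δ)
    (y : JZero M) (hy : red y = δ) :
    m59e_Occ p W S M := by
  classical
  have hpp : p.Prime := hp.out
  -- the index set
  let Λ : Type := {ℓ : Nat.Primes // ¬ (ℓ : ℕ) ∣ M ∧ (ℓ : ℕ) ∉ S}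
  let ℓΛ : Λ → Nat.Primes := fun i => i.1
  have hℓM : ∀ i : Λ, ¬ ((ℓΛ i : ℕ) ∣ M) := fun i => i.2.1
  let a : Λ → ℤ := fun i => W.apOfModel (i.1 : ℕ)
  haveI : Module.Finite ℤ (gh_H M) :=
    Module.Finite.equiv (ghf_basisEquiv M).symm.toIntLinearEquiv
  rcases s44c_nak (fun i : Λ => t2f_TH M (ℓΛ i : ℕ)) (s44c_TH_commute M ℓΛ hℓM) a hpp with
    ⟨v, hv0, hv⟩ | ⟨r, hrH, c, hrc⟩
  · -- an eigen-functional: Deligne–Serre, then the eigencharacter
    obtain ⟨g, 𝔪', hg, hmax, hpm, hcong⟩ := s44c_lift hpp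
      {ℓ : ℕ | ℓ ∉ S} (fun ℓ => W.apOfModel ℓ) v hv0
      (fun ℓ hℓ hℓM' hG => hv ⟨⟨ℓ, hℓ⟩, hℓM', hG⟩)
    obtain ⟨θ, hθ⟩ := twfe_exists_theta hpp (↑S : Set ℕ)
      (fun ℓ hℓ hℓM' => Finset.mem_coe.mpr (hMS ℓ hℓ hℓM')) hg 𝔪' hmax hpm
      (fun ℓ => W.apOfModel ℓ)
      (fun ℓ hℓ hℓM' hℓS => hcong ℓ hℓ hℓM' (fun h => hℓS (Finset.mem_coe.mpr h)))
    exact ⟨inferInstance, ZMod p, inferInstance, inferInstance, θ, fun ℓ hℓ hℓM' hℓS =>
      hθ ℓ hℓ hℓM' hℓS⟩
  · -- Nakayama: contradiction with (DENS-p)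
    exfalso
    let evJ : FreeAlgebra ℤ Λ →ₐ[ℤ] Module.End ℤ (JZero M) :=
      FreeAlgebra.lift ℤ (fun i => heckeOperatorBar M (ℓΛ i))
    let evV : FreeAlgebra ℤ Λ →ₐ[ℤ] Module.End ℤ V :=
      FreeAlgebra.lift ℤ (fun i => (t (ℓΛ i)).toIntLinearMap)
    -- (a) Galois equivariance
    have ha : ∀ (x : FreeAlgebra ℤ Λ) (σ : GQ) (z : JZero M), evJ x (σ • z) = σ • evJ x z := by
      intro x
      induction x using FreeAlgebra.induction with
      | grade0 k =>
        intro σ z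
        rw [AlgHom.commutes, Module.algebraMap_end_apply, Module.algebraMap_end_apply]
        exact (map_zsmul (DistribSMul.toAddMonoidHom (JZero M) σ) k z).symm
      | grade1 i =>
        intro σ z
        show FreeAlgebra.lift ℤ (fun i => heckeOperatorBar M (ℓΛ i)) (FreeAlgebra.ι ℤ i) (σ • z) =
          σ • FreeAlgebra.lift ℤ (fun i => heckeOperatorBar M (ℓΛ i)) (FreeAlgebra.ι ℤ i) z
        rw [FreeAlgebra.lift_ι_apply]
        exact (egh_comm M (ℓΛ i) σ z).symm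
      | mul x₁ x₂ h₁ h₂ =>
        intro σ z
        rw [map_mul, Module.End.mul_apply, Module.End.mul_apply, h₂, h₁]
      | add x₁ x₂ h₁ h₂ =>
        intro σ z
        rw [map_add, LinearMap.add_apply, LinearMap.add_apply, h₁, h₂, smul_add]
    -- (b) compatibility with `red`
    have hb : ∀ (x : FreeAlgebra ℤ Λ) (z : JZero M), red (evJ x z) = evV x (red z) := by
      intro x
      induction x using FreeAlgebra.induction with
      | grade0 k =>
        intro z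
        rw [AlgHom.commutes, AlgHom.commutes, Module.algebraMap_end_apply,
          Module.algebraMap_end_apply, map_zsmul]
      | grade1 i =>
        intro z
        show red (FreeAlgebra.lift ℤ (fun i => heckeOperatorBar M (ℓΛ i)) (FreeAlgebra.ι ℤ i) z) =
          FreeAlgebra.lift ℤ (fun i => (t (ℓΛ i)).toIntLinearMap) (FreeAlgebra.ι ℤ i) (red z)
        rw [FreeAlgebra.lift_ι_apply, FreeAlgebra.lift_ι_apply]
        exact hred i.1 i.2.1 i.2.2 z
      | mul x₁ x₂ h₁ h₂ =>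
        intro z
        rw [map_mul, map_mul, Module.End.mul_apply, Module.End.mul_apply, h₁, h₂]
      | add x₁ x₂ h₁ h₂ =>
        intro z
        rw [map_add, map_add, LinearMap.add_apply, LinearMap.add_apply, map_add, h₁, h₂]
    -- eigenvalue of `evV x` on `δ`
    have hev : ∀ x : FreeAlgebra ℤ Λ, evV x δ = (FreeAlgebra.lift ℤ a x) • δ := by
      intro x
      induction x using FreeAlgebra.induction with
      | grade0 k =>
        rw [AlgHom.commutes, AlgHom.commutes, Module.algebraMap_end_apply]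
        rfl
      | grade1 i =>
        show FreeAlgebra.lift ℤ (fun i => (t (ℓΛ i)).toIntLinearMap) (FreeAlgebra.ι ℤ i) δ =
          (FreeAlgebra.lift ℤ a (FreeAlgebra.ι ℤ i)) • δ
        rw [FreeAlgebra.lift_ι_apply, FreeAlgebra.lift_ι_apply]
        exact hδ i.1 i.2.1 i.2.2
      | mul x₁ x₂ h₁ h₂ =>
        rw [map_mul, map_mul, Module.End.mul_apply, h₂, map_zsmul, h₁, smul_smul, mul_comm]
      | add x₁ x₂ h₁ h₂ =>
        rw [map_add, map_add, LinearMap.add_apply, h₁, h₂, add_smul]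
    -- (c) `evJ r` kills the `p`-power torsion
    have hc : ∀ x : JZero M, (∃ n : ℕ, p ^ n • x = 0) → evJ r x = 0 := by
      rintro x ⟨n, hn⟩
      exact s44c_free_kills_tors M p ℓΛ hℓM r hrH x n hn
    have h0 := hdens (evJ r).toAddMonoidHom (evV r).toAddMonoidHom (fun σ x => ha r σ x)
      (fun x => hb r x) hc y (by rw [hy]; exact hpδ)
    rw [hy] at h0
    have h1 : evV r δ = 0 := h0
    rw [hev r, hrc, add_smul, one_smul, mul_comm, mul_smul, natCast_zsmul, hpδ, smul_zero,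
      add_zero] at h1
    exact hδ0 h1

/-- **[LEVEL-δ]**, closed. -/
theorem m59mz_levelDelta : m59mz_LevelDelta_stmt := by
  intro p _ W S M q _ hq hqM hqp hpS hqS hMS A hA δ hδ0 hpδ hδ
  have hpp : p.Prime := Fact.out
  obtain ⟨y, hy⟩ := s44k2_red_surj M q hq hqM A hA δ
  refine m59mz_occ_of_dens p W S M hMS (reductionModL A M)
    (fun ℓ => s44k2_TCp (IsLocalRing.ResidueField A) M ℓ) ?_
    (twf_dens M q p hq hpp hqM A hA) δ hδ0 hpδ hδ y hy
  intro ℓ hℓM hℓS z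
  have hℓq : (ℓ : ℕ) ≠ q := fun h => hℓS (h ▸ hqS)
  exact s44k2_red_heckep M q hq hqM A hA ℓ hℓM hℓq z

end Fermat.Agent.M59
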