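/-
M59 / box [C + S38g], cell [MAZUR] (helper16).  Prefix `m59mz_`.

**`m59mz_mazur_of3 : m59mz_GeoThreeEven_stmt → m59mz_GeoTwoFive_stmt → m59mz_ThreeTwo_stmt →
    m59m_Mazur_stmt`**: [MAZUR] from its THREE open leaves.

Closed so far: [IRR-W], [LINK] (helper2, `M59/LG/Link.lean`), [J-UNR], [GEO] at `p = 5`, `q` odd
(`Closed.lean`, from main), [LEVEL-δ] (`LevelDelta.lean`), [COPY] (`Copy.lean`).
Open: [GEO] at `p = 3`, `q` odd, even level; [GEO] at `q = 2`, `p = 5` (Hesse); [MZ-32].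
-/
import Fermat.Agent.M59.Mazur.Closed
import Fermat.Agent.M59.Mazur.LevelDelta
import Fermat.Agent.M59.Mazur.Copy

set_option autoImplicit false

namespace Fermat.Agent.M59

/-- **[MAZUR] from its three open leaves.** -/
theorem m59mz_mazur_of3 (hG3 : m59mz_GeoThreeEven_stmt) (hG25 : m59mz_GeoTwoFive_stmt)
    (h32 : m59mz_ThreeTwo_stmt) : m59m_Mazur_stmt :=
  m59mz_mazur_of2 m59mz_copy m59mz_levelDelta hG3 hG25 h32

end Fermat.Agent.M59
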