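/-
M59 / block [MAZUR] (helper16; prefix `m59mz_`), cell [RO-g], part 1: THE CORE OF READ-OFF, Frey-free.

`m59mz_ro_core` : twin of main's `twfo_core` (TW/Easy/RO/Core.lean): an eigensystem
`a ℓ ≡ a_ℓ(W) mod 𝔪` occurring in `K ⊗ T_p J₀(M q)`, attached to `ρ₀ : GaloisRepAdic O`, residually
absolutely irreducible, non-Eisenstein and UNRAMIFIED at `q`, plus the geometric package
`m59mz_GeoPow M hqM p` (cells (Z3)+(Z4), (Z6), (Z7) and additivity of `δ` at the exponents `p ^ n`)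
⟹ `m59e_Occ p W S M`.  The Frey-typed inputs of `twfo_core` are replaced by: the hypothesis `hnE`
(one non-Eisenstein prime outside `S` and the level) and `m59mz_levelDelta` (cell [LEVEL-δ]).
-/
import Mathlib
import Fermat.Agent.M59.Mazur.LevelDelta
import Fermat.Agent.TW.Easy.GeoSeam
import Fermat.Agent.TW.Easy.RO.Stage1
import Fermat.Agent.TW.Easy.RO.Lattice
import Fermat.Agent.TW.Easy.RO.PadicFinite
import Fermat.Agent.LR.NonEis.Final
import Fermat.Agent.S54.Frobenius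

set_option autoImplicit false
set_option linter.unusedSectionVars false
set_option linter.unusedVariables false
set_option linter.style.haveILetI false
set_option synthInstance.maxHeartbeats 400000
set_option maxHeartbeats 16000000

noncomputable section

namespace Fermat.Agent.M59

open WeierstrassCurve WeierstrassCurve.Affine WeierstrassCurve.Affine.Point
open IsLocalRing TensorProduct Polynomial ModularCurve AlgebraicCurve Fermat.Agent.JT3
  Fermat.Agent.S36 Fermat.Agent.S35 Fermat.Agent.SS Fermat.Agent.S24 Fermat.Agent.S44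
  Fermat.Agent.S43 Fermat.Agent.MZ Fermat.Agent.TW

local notation "Qb" => AlgebraicClosure ℚ
local notation "GQ" => (AlgebraicClosure ℚ ≃ₐ[ℚ] AlgebraicClosure ℚ)

/-- **[GEO-pow]**: the geometric cells (Z3)+(Z4) (with empty exceptional set), (Z6), (Z7) of S43's
block [F] and the additivity of `δ` on `J[p ^ n] ∩ ker ν`, at every exponent `p ^ n` (`n ≠ 0`) and
every place over `q`. -/
def m59mz_GeoPow (M : ℕ) {q : ℕ} [NeZero M] [NeZero q] [NeZero (M * q)] [hq : Fact q.Prime]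
    (hqM : ¬ q ∣ M) (p : ℕ) : Prop :=
  ∀ n : ℕ, n ≠ 0 → ∀ A : ValuationSubring Qb, A.LiesOverPrime q →
    (∃ (k : s44e_Sg A M q hq.out hqM → ZMod (p ^ n))
      (B : Nat.Primes → (s44e_Sg A M q hq.out hqM → ZMod (p ^ n)) →+
        (s44e_Sg A M q hq.out hqM → ZMod (p ^ n))), twf_CompCells A M hqM (p ^ n) ∅ k B) ∧
    twf_ResHecke_stmt A M hqM (p ^ n) ∧
    twf_Toric_stmt A M hqM (p ^ n) ∧
    (∀ z z' : JZero (M * q), p ^ n • z = 0 → p ^ n • z' = 0 →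
      twfr_nu A M q hq.out hqM (p ^ n) z = 0 → twfr_nu A M q hq.out hqM (p ^ n) z' = 0 →
      twfr_delta A M q (p ^ n) (z + z') =
        twfr_delta A M q (p ^ n) z + twfr_delta A M q (p ^ n) z')

theorem m59mz_ro_core (p : ℕ) [hpF : Fact p.Prime] (hp2 : p ≠ 2) (M q : ℕ) [NeZero M] [NeZero q]
    [NeZero (M * q)] [hq : Fact q.Prime] (hqM : ¬ q ∣ M) (hqp : q ≠ p)
    (W : WeierstrassCurve ℤ) (S : Finset ℕ) (hpS : p ∈ S)
    (hNS : ∀ ℓ : ℕ, ℓ.Prime → ℓ ∣ M * q → ℓ ∈ S)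
    (O : Type) [CommRing O] [IsDomain O] [IsDiscreteValuationRing O]
    [IsAdicComplete (maximalIdeal O) O] [Finite (ResidueField O)] [CharZero O]
    [Algebra ℤ_[p] O]
    (K : Type) [Field K] [Algebra O K] [IsFractionRing O K] [Algebra ℤ_[p] K]
    [IsScalarTower ℤ_[p] O K]
    (hp : (p : O) ∈ maximalIdeal O) (a : ℕ → O)
    (hares : ∀ ℓ, pk_Good (M * q) S ℓ → a ℓ - ((W.apOfModel ℓ : ℤ) : O) ∈ maximalIdeal O)
    (hev : ∃ v : K ⊗[ℤ_[p]] tj_T (M * q) p, v ≠ 0 ∧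
      ∀ ℓ, pk_Good (M * q) S ℓ →
        (tjp_Tl (M * q) p S ℓ).baseChange K v = algebraMap O K (a ℓ) • v)
    (ρ₀ : GaloisRepAdic O)
    (hρ₀ : ∀ ℓ : ℕ, pk_Good (M * q) S ℓ → ∀ A : ValuationSubring Qb, A.LiesOverPrime ℓ →
      ∀ φ : GQ, A.IsFrobeniusAt φ ℓ →
        LinearMap.charpoly (ρ₀.ρ φ) = X ^ 2 - C (a ℓ) * X + C ((ℓ : O)))
    (habs : ρ₀.residual.IsAbsolutelyIrreducible) (hunr : ρ₀.IsUnramifiedAt q)
    (hnE : ∃ ℓ : ℕ, ℓ.Prime ∧ ℓ ∉ S ∧ ¬ ℓ ∣ M * q ∧ ¬ (p : ℤ) ∣ W.apOfModel ℓ - (ℓ + 1))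
    (hG : m59mz_GeoPow M hqM p) :
    m59e_Occ p W S M := by
  classical
  have hpp : p.Prime := hpF.out
  have hqS : q ∈ S := hNS q hq.out (Dvd.intro_left M rfl)
  have hMS : ∀ ℓ : ℕ, ℓ.Prime → ℓ ∣ M → ℓ ∈ S := fun ℓ hℓ h => hNS ℓ hℓ (Dvd.dvd.mul_right h q)
  haveI : Module.Free ℤ_[p] O := twfo_free_padic p O hp
  obtain ⟨ε, U, hε, hU0, hUst, hUE, hUW, hUin, hUfr⟩ :=
    twfo_stage1 M q p hq.out hqM S O K hpS hNS hp a hev ρ₀ hρ₀ habs hqp hunr
  obtain ⟨A, φ, hA, hφ⟩ := Fermat.Agent.S54.exists_isFrobeniusAt hq.out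
  -- the lattice
  have hL1 : ∀ ℓ, pk_Good (M * q) S ℓ → ∀ w ∈ twfo_L p O K U,
      (tjp_Tl (M * q) p S ℓ).baseChange O w = a ℓ • w :=
    fun ℓ hℓ => twfo_lat_eq p O K U _ (a ℓ) (fun u hu => hUE hu ℓ hℓ)
  have hL2 : ∀ σ : GQ, ∀ w ∈ twfo_L p O K U,
      (tj_rho (M * q) p σ).baseChange O w ∈ twfo_L p O K U :=
    fun σ => twfo_lat_stable p O K U _ (fun u hu => hUst σ hu)
  have hL3 : ∀ s ∈ A.inertiaSubgroupIn ℚ, ∀ w ∈ twfo_L p O K U,
      (tj_rho (M * q) p s).baseChange O w = w := by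
    intro s hs w hw
    have := twfo_lat_eq p O K U (tj_rho (M * q) p s) 1
      (fun u hu => by rw [map_one, one_smul]; exact hUin A hA s hs u hu) w hw
    rwa [one_smul] at this
  have hL4 : ∀ w ∈ twfo_L p O K U,
      (twfo_Wt M q p hq.out hqM).baseChange O w = ε • w := by
    intro w hw
    have := twfo_lat_eq p O K U (twfo_Wt M q p hq.out hqM) (ε : O)
      (fun u hu => by
        rw [hUW u hu, map_intCast]
        exact (Int.cast_smul_eq_zsmul K ε u).symm) w hw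
    exact this.trans (Int.cast_smul_eq_zsmul O ε w)
  -- the coordinate family
  let ζ : (O →ₗ[ℤ_[p]] ℤ_[p]) → ℕ → ↥(twfo_L p O K U) →+ JZero (M * q) := fun f n =>
    (twfo_zeta (M * q) p O f n).comp (twfo_L p O K U).subtype.toAddMonoidHom
  have hζ : ∀ f n (w : ↥(twfo_L p O K U)),
      ζ f n w = twfo_zeta (M * q) p O f n (w : O ⊗[ℤ_[p]] tj_T (M * q) p) :=
    fun _ _ _ => rfl
  have hF1 : ∀ f n w, p ^ n • ζ f n w = 0 := fun f n w => twfo_zeta_tors (M * q) p O f n _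
  have hF2 : ∀ f n (ℓ : ℕ) (hℓ : pk_Good (M * q) S ℓ) (w : ↥(twfo_L p O K U)),
      heckeOperatorBar (M * q) ⟨ℓ, hℓ.1⟩ (ζ f n w) = ζ f n (a ℓ • w) := by
    intro f n ℓ hℓ w
    rw [hζ, hζ, ← twfo_zeta_hecke, ← tjp_Tl_good (M * q) p S hℓ, hL1 ℓ hℓ w.1 w.2]
    rfl
  have hF3 : ∀ f n, ∀ s ∈ A.inertiaSubgroupIn ℚ, ∀ w, s • ζ f n w = ζ f n w := by
    intro f n s hs w
    rw [hζ, ← twfo_zeta_rho, hL3 s hs w.1 w.2]
  have hF4 : ∀ f n w, s44w_WJ M q hq.out hqM (ζ f n w) = ε • ζ f n w := by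
    intro f n w
    rw [hζ, ← twfo_zeta_W, hL4 w.1 w.2, map_zsmul]
  have hm0 : ∀ n, p ^ n ≠ 0 := fun n => pow_ne_zero n hpp.ne_zero
  -- [EIS]: `ν = 0` on the family
  have hν : ∀ n, n ≠ 0 → ∀ f w, twfr_nu A M q hq.out hqM (p ^ n) (ζ f n w) = 0 := by
    intro n hn f
    obtain ⟨k, B, hcells⟩ := (hG n hn A hA).1
    obtain ⟨ℓ, hℓ, hℓSS, hℓN, hnd⟩ := hnE
    have hℓS' : ℓ ∉ (∅ : Finset ℕ) := Finset.notMem_empty ℓ
    have hGd : pk_Good (M * q) S ℓ := ⟨hℓ, hℓN, fun h => hℓSS (Finset.mem_coe.1 h)⟩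
    haveI : NeZero (p ^ n) := ⟨hm0 n⟩
    refine twfo_eis (O := O) (ζ f n) (hF1 f n) (twfr_nu A M q hq.out hqM (p ^ n))
      (fun z z' hz hz' => twfr_nu_add A hA M hqM (hm0 n) hz hz') k hcells.k_unit
      (fun w => hcells.mono (ζ f n w) (hF1 f n w) (fun s hs => hF3 f n s hs w))
      (heckeOperatorBar (M * q) ⟨ℓ, hℓ⟩) (B ⟨ℓ, hℓ⟩)
      (fun z hz => hcells.heckeRes ⟨ℓ, hℓ⟩ hℓN hℓS' z hz)
      (ℓ + 1) ?_ (a ℓ) (fun w => hF2 f n ℓ hGd w) ?_
    · have := hcells.B_eis ⟨ℓ, hℓ⟩ hℓN hℓS'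
      push_cast
      exact this
    · rw [← IsLocalRing.notMem_maximalIdeal]
      intro hmem
      apply hnd
      have h1 : (((W.apOfModel ℓ - ((ℓ : ℤ) + 1) : ℤ)) : O) ∈ maximalIdeal O := by
        have h2 := (maximalIdeal O).sub_mem hmem (hares ℓ hGd)
        have h3 : a ℓ - ((ℓ + 1 : ℕ) : O) - (a ℓ - ((W.apOfModel ℓ : ℤ) : O)) =
            (((W.apOfModel ℓ - ((ℓ : ℤ) + 1) : ℤ)) : O) := by
          push_cast
          ring
        rwa [h3] at h2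
      have h4 := (Fermat.Agent.LR.lrv_int_mem_iff (maximalIdeal.isMaximal O) hpp hp _).1 h1
      exact h4
  by_cases hδ : ∃ n, n ≠ 0 ∧ ∃ f w, twfr_delta A M q (p ^ n) (ζ f n w) ≠ 0
  · -- Case A: a nonzero `δ`: socle step and OLD-k
    obtain ⟨n, hn, f, w₀, hw₀⟩ := hδ
    have hadd : ∀ w w' : ↥(twfo_L p O K U),
        twfr_delta A M q (p ^ n) (ζ f n (w + w')) =
          twfr_delta A M q (p ^ n) (ζ f n w) + twfr_delta A M q (p ^ n) (ζ f n w') := by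
      intro w w'
      rw [map_add]
      exact (hG n hn A hA).2.2.2 _ _ (hF1 f n w) (hF1 f n w') (hν n hn f w) (hν n hn f w')
    let D : ↥(twfo_L p O K U) →+ JZeroC (s44e_kA A) M :=
      AddMonoidHom.mk' (fun w => twfr_delta A M q (p ^ n) (ζ f n w)) hadd
    have hD : ∀ w, D w = twfr_delta A M q (p ^ n) (ζ f n w) := fun _ => rfl
    have hδ0 : twfr_delta A M q (p ^ n) (0 : JZero (M * q)) = 0 := by
      have h1 := D.map_zero
      rwa [hD, _root_.map_zero] at h1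
    have hnil : ∃ n₀ : ℕ, ∀ b ∈ maximalIdeal O ^ n₀, ∀ w, D (b • w) = 0 := by
      have hp0 : (p : O) ≠ 0 := by exact_mod_cast hpp.ne_zero
      obtain ⟨e, he⟩ := twfo_span_p_eq_pow p O hp0
      refine ⟨e * n, fun b hb w => ?_⟩
      rw [pow_mul, ← he, Ideal.span_singleton_pow, Ideal.mem_span_singleton'] at hb
      obtain ⟨c, rfl⟩ := hb
      have h1 : ζ f n ((c * (p : O) ^ n) • w) = 0 := by
        rw [hζ]
        have h2 : (((c * (p : O) ^ n) • w : ↥(twfo_L p O K U)) :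
            O ⊗[ℤ_[p]] tj_T (M * q) p) = (((p : O) ^ n * c)) • (w : O ⊗[ℤ_[p]] tj_T (M * q) p) := by
          have hc : c * (p : O) ^ n = (p : O) ^ n * c := mul_comm _ _
          rw [hc]
          rfl
        rw [h2, twfo_zeta_pow_smul]
      rw [hD, h1, hδ0]
    obtain ⟨w, hw, hwm⟩ := twfo_socle (maximalIdeal O) D hnil w₀ hw₀
    refine m59mz_levelDelta p W S M q hq.out hqM hqp hpS hqS hMS A hA (D w) hw ?_ ?_
    · rw [← map_nsmul, ← Nat.cast_smul_eq_nsmul O]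
      exact hwm _ hp
    · intro ℓ hℓM hℓS0
      have hℓq : (ℓ : ℕ) ≠ q := fun h => hℓS0 (h ▸ hqS)
      have hℓp : (ℓ : ℕ) ≠ p := fun h => hℓS0 (h ▸ hpS)
      have hℓN : ¬ (ℓ : ℕ) ∣ M * q := by
        intro h
        rcases (Nat.Prime.dvd_mul ℓ.2).mp h with h1 | h1
        · exact hℓM h1
        · exact hℓq ((Nat.prime_dvd_prime_iff_eq ℓ.2 hq.out).mp h1)
      have hℓS : (ℓ : ℕ) ∉ (↑S : Set ℕ) := fun h => hℓS0 (Finset.mem_coe.1 h)
      have hGd : pk_Good (M * q) S ℓ := ⟨ℓ.2, hℓN, hℓS⟩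
      have hℓm : ¬ (ℓ : ℕ) ∣ p ^ n := fun h =>
        hℓp ((Nat.prime_dvd_prime_iff_eq ℓ.2 hpp).mp (ℓ.2.dvd_of_dvd_pow h))
      have h1 : s44k2_TCp (s44e_kA A) M ℓ (D w) = D (a ℓ • w) := by
        rw [hD, hD, ← (hG n hn A hA).2.1 ℓ hℓN hℓm (ζ f n w) (hF1 f n w) (hν n hn f w)]
        exact congrArg _ (hF2 f n ℓ hGd w)
      have h2 : (W.apOfModel ℓ) • D w = D (((W.apOfModel ℓ : ℤ) : O) • w) := by
        rw [← map_zsmul]
        exact congrArg D (Int.cast_smul_eq_zsmul O _ w).symm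
      have h3 : D ((a ℓ - ((W.apOfModel ℓ : ℤ) : O)) • w) = 0 := hwm _ (hares ℓ hGd)
      have h3' : a ℓ • w =
          (a ℓ - ((W.apOfModel ℓ : ℤ) : O)) • w + ((W.apOfModel ℓ : ℤ) : O) • w := by
        apply Subtype.ext
        show a ℓ • (w : O ⊗[ℤ_[p]] tj_T (M * q) p) =
          (a ℓ - ((W.apOfModel ℓ : ℤ) : O)) • (w : O ⊗[ℤ_[p]] tj_T (M * q) p) +
            ((W.apOfModel ℓ : ℤ) : O) • (w : O ⊗[ℤ_[p]] tj_T (M * q) p)
        rw [← add_smul, sub_add_cancel]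
      rw [h1, h2, h3', map_add, h3, zero_add]
  · -- Case B: all `δ` vanish: `φ² = q²` on the lattice, contradiction
    push Not at hδ
    exfalso
    apply hUfr A hA φ hφ
    have hsq : ∀ w ∈ twfo_L p O K U,
        (tj_rho (M * q) p φ).baseChange O ((tj_rho (M * q) p φ).baseChange O w) =
          ((q : O) ^ 2) • w := by
      intro w hw
      rw [← sub_eq_zero]
      apply twfo_zeta_ext (M * q) p O
      intro f n
      rw [map_sub, sub_eq_zero, twfo_zeta_rho, twfo_zeta_rho]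
      have hz : twfo_zeta (M * q) p O f n w = ζ f n ⟨w, hw⟩ := rfl
      have h1 : twfo_zeta (M * q) p O f n (((q : O) ^ 2) • w) =
          (q ^ 2) • twfo_zeta (M * q) p O f n w := by
        rw [← map_nsmul, ← Nat.cast_smul_eq_nsmul O]
        push_cast
        rfl
      rw [h1, hz]
      rcases Nat.eq_zero_or_pos n with rfl | hn
      · have h0 : ζ f 0 ⟨w, hw⟩ = 0 := by
          have := hF1 f 0 ⟨w, hw⟩
          rwa [pow_zero, one_smul] at this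
        have e0 : φ • (0 : JZero (M * q)) = 0 := smul_zero (A := JZero (M * q)) φ
        rw [h0, e0, e0, smul_zero]
      · have hn' : n ≠ 0 := hn.ne'
        have hWz : s44w_WJ M q hq.out hqM (ζ f n ⟨w, hw⟩) = ζ f n ⟨w, hw⟩ ∨
            s44w_WJ M q hq.out hqM (ζ f n ⟨w, hw⟩) = -ζ f n ⟨w, hw⟩ := by
          rcases hε with rfl | rfl
          · left; rw [hF4, one_zsmul]
          · right; rw [hF4, neg_one_zsmul]
        have h2 := (hG n hn' A hA).2.2.1 φ hφ (ζ f n ⟨w, hw⟩) (hF1 f n _)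
          (fun s hs => hF3 f n s hs _) hWz (hν n hn' f _) (hδ n hn' f _)
        rw [h2]
        have h3 : ((q : ℤ) ^ 2) = ((q ^ 2 : ℕ) : ℤ) := by push_cast; rfl
        rw [h3, natCast_zsmul]
    intro u hu
    have := twfo_lat_sq p O K U (tj_rho (M * q) p φ) ((q : O) ^ 2) hsq u hu
    rw [map_pow, map_natCast] at this
    exact this

end Fermat.Agent.M59
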