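/-
M59 / block [MAZUR] (helper16; prefix `m59mz_`), cell [RO-g], part 2: READ-OFF IN `Occ` FORM, Frey-free.

* `m59mz_GeoPowOdd_stmt` : the package `m59mz_GeoPow M hqM p` (ReadOffCore.lean) for `q` odd:
  `p = 5` at any level `M`, `p = 3` at EVEN level `M` (same side conditions as `m59mz_GeoOdd_stmt`);
* `m59mz_geoPow_five`    : the package at `p = 5`, `q` odd: PROVED from main's cells
  (`twf_compPow`, `twf_resHeckePow`, `twf_toricPow`, `twfr_delta_add_of_nu`);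
* `m59mz_GeoPowThreeEven_stmt` : the package at `p = 3`, `q` odd, `M` even (open leaf, twin work);
* `m59mz_geoPowOdd_of : m59mz_GeoPowThreeEven_stmt → m59mz_GeoPowOdd_stmt`;
* **`m59mz_readoff_of`** : `m59mz_GeoPowOdd_stmt →` the statement of `m59m_ReadOffG_stmt`
  (M59/S38g/Seams.lean) WITH the extra hypothesis `(p = 3 → 2 ∣ N)` (twin of main's `twfo_readoff`);
* **`m59mz_readoff_five`** : the read-off at `p = 5`, no hypothesis left.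
-/
import Mathlib
import Fermat.Agent.M59.Mazur.ReadOffCore
import Fermat.Agent.M59.S38g.Seams
import Fermat.Agent.TW.Easy.Asm.ReadOff

set_option autoImplicit false
set_option linter.unusedSectionVars false
set_option linter.unusedVariables false
set_option linter.style.haveILetI false
set_option synthInstance.maxHeartbeats 400000
set_option maxHeartbeats 16000000

noncomputable section

namespace Fermat.Agent.M59

open WeierstrassCurve WeierstrassCurve.Affine WeierstrassCurve.Affine.Point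
open IsLocalRing TensorProduct Polynomial ModularCurve AlgebraicCurve CuspForm Fermat.Agent.JT3
  Fermat.Agent.S36 Fermat.Agent.S35 Fermat.Agent.SS Fermat.Agent.S24 Fermat.Agent.S44
  Fermat.Agent.S43 Fermat.Agent.MZ Fermat.Agent.TW

local notation "Qb" => AlgebraicClosure ℚ
local notation "GQ" => (AlgebraicClosure ℚ ≃ₐ[ℚ] AlgebraicClosure ℚ)

/-- **[GEO-pow], `q` odd**: `p = 5` at any level, `p = 3` at EVEN level `M`. -/
def m59mz_GeoPowOdd_stmt : Prop :=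
  ∀ (M q : ℕ) [NeZero M] [NeZero q] [NeZero (M * q)] [Fact q.Prime] (hqM : ¬ q ∣ M) (p : ℕ),
    q ≠ 2 → p = 3 ∨ p = 5 → p ≠ q → (p = 3 → 2 ∣ M) → m59mz_GeoPow M hqM p

/-- **[GEO-pow], `q` odd, `p = 3`, `M` even** (open leaf: even-level twins). -/
def m59mz_GeoPowThreeEven_stmt : Prop :=
  ∀ (M q : ℕ) [NeZero M] [NeZero q] [NeZero (M * q)] [Fact q.Prime] (hqM : ¬ q ∣ M),
    q ≠ 2 → 3 ≠ q → 2 ∣ M → m59mz_GeoPow M hqM 3

/-- **[GEO-pow] at `p = 5`, `q` odd**: main's cells. -/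
theorem m59mz_geoPow_five (M q : ℕ) [NeZero M] [NeZero q] [NeZero (M * q)] [hq : Fact q.Prime]
    (hqM : ¬ q ∣ M) (hq2 : q ≠ 2) (h5q : 5 ≠ q) : m59mz_GeoPow M hqM 5 := by
  intro n hn A hA
  have h5 : (5 : ℕ).Prime := by norm_num
  have hm0 : (5 : ℕ) ^ n ≠ 0 := pow_ne_zero n h5.ne_zero
  have hm6 : Nat.Coprime (5 ^ n) 6 := twf_coprime_six_pow h5 le_rfl n
  refine ⟨⟨_, _, twf_compCells_gen A hA M hqM hq2 hm0 hm6⟩,
    twf_resHeckePow M q hqM 5 n hq2 h5 le_rfl h5q hn A hA,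
    twf_toricPow M q hqM 5 n hq2 h5 le_rfl h5q hn A hA, ?_⟩
  intro z z' hz hz' hν hν'
  exact twfr_delta_add_of_nu A hA M hqM hq2 hm0 hm6 hz hz' hν hν'

theorem m59mz_geoPowOdd_of (h3 : m59mz_GeoPowThreeEven_stmt) : m59mz_GeoPowOdd_stmt := by
  intro M q _ _ _ _ hqM p hq2 hp hpq hev
  rcases hp with rfl | rfl
  · exact h3 M q hqM hq2 hpq (hev rfl)
  · exact m59mz_geoPow_five M q hqM hq2 hpq

/-- **[RO-g] READ-OFF in `Occ` form FROM THE CELLS, at one prime `p ≠ 2`** (twin of main's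
`twfo_readoff`). -/
theorem m59mz_readoff_at (p : ℕ) [hpF : Fact p.Prime] (hp2 : p ≠ 2)
    (hG : ∀ (M q : ℕ) [NeZero M] [NeZero q] [NeZero (M * q)] [Fact q.Prime] (hqM : ¬ q ∣ M),
      q ≠ 2 → p ≠ q → (p = 3 → 2 ∣ M) → m59mz_GeoPow M hqM p)
    (W : WeierstrassCurve ℤ) (S : Finset ℕ) (N q : ℕ) (hpS : p ∈ S) (hsq : Squarefree N)
    (hNS : ∀ ℓ : ℕ, ℓ.Prime → ℓ ∣ N → ℓ ∈ S) (hq : q.Prime) (hqp : q ≠ p) (hq2 : q ≠ 2)
    (hqN : q ∣ N) (hev : p = 3 → 2 ∣ N)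
    (hnE : ∃ ℓ : ℕ, ℓ.Prime ∧ ℓ ∉ S ∧ ¬ ℓ ∣ N ∧ ¬ (p : ℤ) ∣ W.apOfModel ℓ - (ℓ + 1))
    (hL : m59m_Lift p W S N q) : m59e_Occ p W S (N / q) := by
  obtain ⟨_, O, _, _, _, _, _, _, χ, ρ, hpO, hχW, hcompat, habs, hunr⟩ := hL
  classical
  obtain ⟨M, hM⟩ := hqN
  have hM' : N = M * q := by rw [hM, mul_comm]
  subst hM'
  have hN0 : M * q ≠ 0 := NeZero.ne _
  haveI : NeZero M := ⟨fun h => hN0 (by rw [h, zero_mul])⟩
  haveI : NeZero q := ⟨hq.ne_zero⟩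
  haveI : Fact q.Prime := ⟨hq⟩
  have hqM : ¬ q ∣ M := by
    rintro ⟨k, rfl⟩
    exact (Nat.squarefree_iff_prime_squarefree.1 hsq) q hq ⟨k, by ring⟩
  have hevM : p = 3 → 2 ∣ M := by
    intro h3
    rcases (Nat.Prime.dvd_mul Nat.prime_two).mp (hev h3) with h | h
    · exact h
    · exact absurd ((Nat.prime_dvd_prime_iff_eq Nat.prime_two hq).mp h).symm hq2
  rw [Nat.mul_div_cancel M hq.pos]
  letI : Algebra ℤ_[p] O := (cya_padicHom p O hpO).toAlgebra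
  obtain ⟨χ₀, hχ₀⟩ := tjp_eigen_gen (M * q) p S χ
  have hinjO : Function.Injective (algebraMap ℤ_[p] O) :=
    pk_padic_injective p (algebraMap ℤ_[p] O)
  have hinj : Function.Injective (algebraMap ℤ_[p] (FractionRing O)) := by
    rw [IsScalarTower.algebraMap_eq ℤ_[p] O (FractionRing O)]
    exact (IsFractionRing.injective O (FractionRing O)).comp hinjO
  haveI : FaithfulSMul ℤ_[p] (FractionRing O) :=
    (faithfulSMul_iff_algebraMap_injective _ _).2 hinj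
  obtain ⟨v, hv0, hv⟩ := pk_eigen_tensor
    (Algebra.adjoin ℤ_[p] (pk_heckeSet (M * q) S (tjp_Tl (M * q) p S)))
    (pk_hecke_comm (tjp_tate (M * q) p S hpS (tji_nodeE (M * q)) (tji_S18 (M * q))))
    ((IsScalarTower.toAlgHom ℤ_[p] O (FractionRing O)).comp χ₀)
  let a : ℕ → O := fun ℓ =>
    if h : pk_Good (M * q) S ℓ then χ (heckeAlgebra.T h.1 h.2.1 h.2.2) else 0
  have ha : ∀ (ℓ : ℕ) (h : pk_Good (M * q) S ℓ), a ℓ = χ (heckeAlgebra.T h.1 h.2.1 h.2.2) :=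
    fun ℓ h => by simp only [a, dif_pos h]
  have hares : ∀ ℓ, pk_Good (M * q) S ℓ →
      a ℓ - ((W.apOfModel ℓ : ℤ) : O) ∈ maximalIdeal O := by
    intro ℓ hℓ
    rw [← IsLocalRing.residue_eq_zero_iff, map_sub, ha ℓ hℓ, hχW ℓ hℓ.1 hℓ.2.1 hℓ.2.2,
      map_intCast, sub_self]
  refine m59mz_ro_core p hp2 M q hqM hqp W S hpS hNS O (FractionRing O) hpO a hares
    ⟨v, hv0, fun ℓ hℓ => ?_⟩ ρ (fun ℓ hℓ A hA φ hφ => ?_) habs hunr hnE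
    (hG M q hqM hq2 (Ne.symm hqp) hevM)
  · have := hv ⟨tjp_Tl (M * q) p S ℓ, pk_mem_heckeSet (tjp_Tl (M * q) p S) hℓ.1 hℓ.2.1 hℓ.2.2⟩
    rw [this, ha ℓ hℓ]
    congr 1
    change algebraMap O (FractionRing O) (χ₀ _) = _
    rw [hχ₀ ℓ hℓ.1 hℓ.2.1 hℓ.2.2]
  · rw [hcompat ℓ hℓ.1 hℓ.2.1 hℓ.2.2 A hA φ hφ, ha ℓ hℓ]

/-- **[RO-g] READ-OFF in `Occ` form FROM THE CELLS**: the statement `m59m_ReadOffG_stmt` with the
extra hypothesis `(p = 3 → 2 ∣ N)`. -/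
theorem m59mz_readoff_of (hG : m59mz_GeoPowOdd_stmt) :
    ∀ (p : ℕ) [Fact p.Prime], p = 3 ∨ p = 5 → ∀ (W : WeierstrassCurve ℤ) (S : Finset ℕ)
      (N q : ℕ), p ∈ S → Squarefree N → (∀ ℓ : ℕ, ℓ.Prime → ℓ ∣ N → ℓ ∈ S) →
      q.Prime → q ≠ p → q ≠ 2 → q ∣ N → (p = 3 → 2 ∣ N) →
      (∃ ℓ : ℕ, ℓ.Prime ∧ ℓ ∉ S ∧ ¬ ℓ ∣ N ∧ ¬ (p : ℤ) ∣ W.apOfModel ℓ - (ℓ + 1)) →
      m59m_Lift p W S N q → m59e_Occ p W S (N / q) := by
  intro p hpF hp35 W S N q hpS hsq hNS hq hqp hq2 hqN hev hnE hL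
  have hp2 : p ≠ 2 := by rcases hp35 with rfl | rfl <;> norm_num
  exact m59mz_readoff_at p hp2 (fun M q _ _ _ _ hqM hq2 hpq hevM => hG M q hqM p hq2 hp35 hpq hevM)
    W S N q hpS hsq hNS hq hqp hq2 hqN hev hnE hL

/-- **[RO-g] at `p = 5`: CLOSED** (every hypothesis of `m59m_ReadOffG_stmt`, at `p = 5`). -/
theorem m59mz_readoff_five [Fact (5 : ℕ).Prime] (W : WeierstrassCurve ℤ) (S : Finset ℕ)
    (N q : ℕ) (h5S : 5 ∈ S) (hsq : Squarefree N) (hNS : ∀ ℓ : ℕ, ℓ.Prime → ℓ ∣ N → ℓ ∈ S)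
    (hq : q.Prime) (hq5 : q ≠ 5) (hq2 : q ≠ 2) (hqN : q ∣ N)
    (hnE : ∃ ℓ : ℕ, ℓ.Prime ∧ ℓ ∉ S ∧ ¬ ℓ ∣ N ∧ ¬ ((5 : ℕ) : ℤ) ∣ W.apOfModel ℓ - (ℓ + 1))
    (hL : m59m_Lift 5 W S N q) : m59e_Occ 5 W S (N / q) :=
  m59mz_readoff_at 5 (by norm_num)
    (fun M q _ _ _ _ hqM hq2 hpq _ => m59mz_geoPow_five M q hqM hq2 hpq)
    W S N q h5S hsq hNS hq hq5 hq2 hqN (by norm_num) hnE hL

end Fermat.Agent.M59
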