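/-
M59 / block [MAZUR] (helper16; prefix `m59mz_`), cell [RO-g], part 3: READ-OFF IN THE TATE CONTEXT,
with the detour through the prime `2` at `p = 3` and odd level.

* `m59mz_ReadOffE_stmt` : `m59m_ReadOffG_stmt` (M59/S38g/Seams.lean) with the extra hypothesis
  `(p = 3 → 2 ∣ N)`; PROVED from the cells: `m59mz_readoffE_of : m59mz_GeoPowOdd_stmt → …`
  (= `m59mz_readoff_of`, ReadOff.lean).
* `m59mz_occ_of_lift`  : `m59m_Lift p W S N q → m59e_Occ p W S N` (reduce `χ` modulo `𝔪`).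
* `m59mz_lift_mono`    : `m59m_Lift` is monotone in the level (`twe_rg_theta_lift`).
* `m59mz_ReadOffT_stmt`: the read-off in the Tate context (`W` semistable, `ρ` with `m59e_IsTate`,
  `2 ∈ S`), NO evenness hypothesis.
* **`m59mz_readoffT_of : m59mz_ReadOffE_stmt → m59m_Mazur_stmt → m59mz_ReadOffT_stmt`** : at
  `p = 3`, `N` odd: `Lift N ⟹ Lift 2N ⟹ Occ (2N/q)` [read-off at the EVEN level `2N`]
  `⟹ Occ (N/q)` [MAZUR at the non-hard prime `2`; `ρ̄` is unramified at `2` by `m59lg_unrOdd`].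
-/
import Mathlib
import Fermat.Agent.M59.Mazur.ReadOff
import Fermat.Agent.M59.LG.ExitRes

set_option autoImplicit false
set_option linter.unusedSectionVars false
set_option linter.unusedVariables false
set_option linter.style.haveILetI false
set_option synthInstance.maxHeartbeats 400000
set_option maxHeartbeats 1000000

noncomputable section

namespace Fermat.Agent.M59

open Polynomial CuspForm IsLocalRing WeierstrassCurve Fermat.Agent.TW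

/-- **[RO-g] with evenness at `p = 3`**: `m59m_ReadOffG_stmt` plus `(p = 3 → 2 ∣ N)`. -/
def m59mz_ReadOffE_stmt : Prop :=
  ∀ (p : ℕ) [Fact p.Prime], p = 3 ∨ p = 5 → ∀ (W : WeierstrassCurve ℤ) (S : Finset ℕ)
    (N q : ℕ), p ∈ S → Squarefree N → (∀ ℓ : ℕ, ℓ.Prime → ℓ ∣ N → ℓ ∈ S) →
    q.Prime → q ≠ p → q ≠ 2 → q ∣ N → (p = 3 → 2 ∣ N) →
    (∃ ℓ : ℕ, ℓ.Prime ∧ ℓ ∉ S ∧ ¬ ℓ ∣ N ∧ ¬ (p : ℤ) ∣ W.apOfModel ℓ - (ℓ + 1)) →
    m59m_Lift p W S N q → m59e_Occ p W S (N / q)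

theorem m59mz_readoffE_of (hG : m59mz_GeoPowOdd_stmt) : m59mz_ReadOffE_stmt :=
  m59mz_readoff_of hG

/-- the reduction of the eigensystem of a lift occurs at the same level. -/
theorem m59mz_occ_of_lift {p : ℕ} [Fact p.Prime] {W : WeierstrassCurve ℤ} {S : Finset ℕ}
    {N q : ℕ} (h : m59m_Lift p W S N q) : m59e_Occ p W S N := by
  obtain ⟨hN, O, _, _, _, _, _, _, χ, ρ, hpO, hχW, -, -, -⟩ := h
  haveI : CharP (ResidueField O) p := m59mz_charP_residue p hpO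
  exact ⟨hN, ResidueField O, inferInstance, inferInstance, (residue O).comp χ,
    fun ℓ hℓ hℓM hℓS => hχW ℓ hℓ hℓM hℓS⟩

/-- `m59m_Lift` is monotone in the level. -/
theorem m59mz_lift_mono {p : ℕ} {W : WeierstrassCurve ℤ} {S : Finset ℕ} {N N' q : ℕ}
    (h : N ∣ N') (hN' : 0 < N') (hS : ∀ ℓ : ℕ, ℓ.Prime → ℓ ∣ N' → ℓ ∈ S)
    (hL : m59m_Lift p W S N q) : m59m_Lift p W S N' q := by
  obtain ⟨hN, O, i1, i2, i3, i4, i5, i6, χ, ρ, hpO, hχW, hc, habs, hunr⟩ := hL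
  haveI : NeZero N' := ⟨hN'.ne'⟩
  obtain ⟨χ', hχ'⟩ := twe_rg_theta_lift h S S (Finset.Subset.refl S) hS χ
  refine ⟨⟨hN'.ne'⟩, O, i1, i2, i3, i4, i5, i6, χ', ρ, hpO, ?_, ?_, habs, hunr⟩
  · intro ℓ hℓ hℓN' hℓS
    have hℓN : ¬ ℓ ∣ N := fun hd => hℓN' (dvd_trans hd h)
    rw [hχ' ℓ hℓ hℓN' hℓS hℓN hℓS]
    exact hχW ℓ hℓ hℓN hℓS
  · intro ℓ hℓ hℓN' hℓS A hA σ hσ
    have hℓN : ¬ ℓ ∣ N := fun hd => hℓN' (dvd_trans hd h)
    rw [hχ' ℓ hℓ hℓN' hℓS hℓN hℓS]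
    exact hc ℓ hℓ hℓN hℓS A hA σ hσ

/-- **[RO-g] in the Tate context**: no evenness hypothesis. -/
def m59mz_ReadOffT_stmt : Prop :=
  ∀ (p : ℕ) [Fact p.Prime], p = 3 ∨ p = 5 → ∀ W : WeierstrassCurve ℤ, W.Δ ≠ 0 →
    W.IsSemistableModel →
  ∀ (𝒪 : Type) [CommRing 𝒪] [IsDomain 𝒪] [IsDiscreteValuationRing 𝒪]
    [IsAdicComplete (maximalIdeal 𝒪) 𝒪] [Finite (ResidueField 𝒪)] [CharZero 𝒪],
    (p : 𝒪) ∈ maximalIdeal 𝒪 →
  ∀ ρ : GaloisRepAdic 𝒪, m59e_IsTate p W ρ →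
  ∀ (S : Finset ℕ) (N q : ℕ), m59e_IsBadSet W p S → 2 ∈ S → Squarefree N →
    (∀ ℓ : ℕ, ℓ.Prime → ℓ ∣ N → ℓ ∈ S) → q.Prime → q ≠ p → q ≠ 2 → q ∣ N →
    (W.IsGoodPrimeFor p → ¬ p ∣ N) →
    m59m_Lift p W S N q → m59e_Occ p W S (N / q)

/-- **[RO-g] in the Tate context from the even read-off and [MAZUR] (at the prime `2`).** -/
theorem m59mz_readoffT_of (hRE : m59mz_ReadOffE_stmt) (hMz : m59m_Mazur_stmt) :
    m59mz_ReadOffT_stmt := by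
  intro p _ hp W hΔ hW 𝒪 _ _ _ _ _ _ hp𝒪 ρ hT S N q hS h2S hsq hNS hq hqp hq2 hqN hgood hlift
  have hNpos : 0 < N := Nat.pos_of_ne_zero hsq.ne_zero
  by_cases hcase : p = 3 → 2 ∣ N
  · exact hRE p hp W S N q hS.1 hsq hNS hq hqp hq2 hqN hcase
      (m59m_nonEis_of_tate hp𝒪 hT S N hsq.ne_zero) hlift
  · -- `p = 3`, `N` odd
    push Not at hcase
    obtain ⟨hp3, h2N⟩ := hcase
    subst hp3
    have h3prime : Nat.Prime 3 := by norm_num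
    have hcop : Nat.Coprime 2 N := (Nat.Prime.coprime_iff_not_dvd Nat.prime_two).mpr h2N
    have hsq' : Squarefree (2 * N) :=
      (Nat.squarefree_mul_iff).mpr ⟨hcop, Nat.prime_two.squarefree, hsq⟩
    have hNS' : ∀ ℓ : ℕ, ℓ.Prime → ℓ ∣ 2 * N → ℓ ∈ S := by
      intro ℓ hℓ hd
      rcases (Nat.Prime.dvd_mul hℓ).mp hd with h | h
      · rw [(Nat.prime_dvd_prime_iff_eq hℓ Nat.prime_two).mp h]
        exact h2S
      · exact hNS ℓ hℓ h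
    have hlift' : m59m_Lift 3 W S (2 * N) q :=
      m59mz_lift_mono (Dvd.intro_left 2 rfl) (Nat.mul_pos two_pos hNpos) hNS' hlift
    have hqN' : q ∣ 2 * N := Dvd.dvd.mul_left hqN 2
    have hocc2 : m59e_Occ 3 W S (2 * N / q) :=
      hRE 3 hp W S (2 * N) q hS.1 hsq' hNS' hq hqp hq2 hqN' (fun _ => Dvd.intro N rfl)
        (m59m_nonEis_of_tate hp𝒪 hT S (2 * N) hsq'.ne_zero) hlift'
    have hdiv : 2 * N / q = 2 * (N / q) := Nat.mul_div_assoc 2 hqN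
    rw [hdiv] at hocc2
    have hNq : N / q ∣ N := Nat.div_dvd_of_dvd hqN
    have hdvd2 : 2 * (N / q) ∣ 2 * N := Nat.mul_dvd_mul_left 2 hNq
    have hsq2 : Squarefree (2 * (N / q)) := hsq'.squarefree_of_dvd hdvd2
    have hNS2 : ∀ ℓ : ℕ, ℓ.Prime → ℓ ∣ 2 * (N / q) → ℓ ∈ S := fun ℓ hℓ hd =>
      hNS' ℓ hℓ (dvd_trans hd hdvd2)
    have hnothard : ¬ m59m_IsHard 3 ρ.residual 2 := by
      intro h
      have := h.1
      omega
    have hunr2 : ρ.residual.IsUnramifiedAt 2 :=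
      m59lg_unrOdd 3 hp W hΔ hW 𝒪 hp𝒪 ρ hT S N 2 hS hsq hNS Nat.prime_two (by norm_num) h2N
        (m59mz_occ_of_lift hlift)
    have hgood2 : W.IsGoodPrimeFor 3 → ¬ 3 ∣ 2 * (N / q) := by
      intro hg h
      have h1 : 3 ∣ 2 * N := dvd_trans h hdvd2
      rcases (Nat.Prime.dvd_mul h3prime).mp h1 with h2 | h2
      · omega
      · exact hgood hg h2
    have hocc3 : m59e_Occ 3 W S (2 * (N / q) / 2) :=
      hMz 3 hp W hΔ hW 𝒪 hp𝒪 ρ hT S (2 * (N / q)) 2 hS h2S hsq2 hNS2 Nat.prime_two (by norm_num)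
        (Dvd.intro _ rfl) hgood2 hunr2 hnothard hocc2
    rwa [Nat.mul_div_cancel_left _ two_pos] at hocc3

end Fermat.Agent.M59
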