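/-
M59 / block [MAZUR] (helper16; prefix `m59mz_`), cell [RO-g], part 4: THE [HARD] WIRING WITH THE READ-OFF
IN THE TATE CONTEXT.

helper14's wiring `m59m_flatLower_of`, `m59m_hard_of_flatLower`, `m59m_hard_of2`, `m59m_hard_of3`
(M59/S38g/MachEntry.lean, RigidifierOf.lean) VERBATIM, with the hypothesis
`m59m_ReadOffG_stmt` replaced by `m59mz_ReadOffT_stmt` (ReadOffT.lean; every call site has the Tate
context at hand), so that the read-off is only ever needed at EVEN level when `p = 3`: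

* `m59mz_hard_of3 (Peu) : m59e_LowCore_stmt Peu → m59m_MachFlatR_stmt → m59m_MachOrd_stmt Peu →
    m59mz_ReadOffT_stmt → m59m_Mazur_stmt → m59e_EntryExt_stmt → m59m_Hard_stmt`;
* **`m59mz_hard_of4 (Peu) : m59e_LowCore_stmt Peu → m59m_MachFlatR_stmt → m59m_MachOrd_stmt Peu →
    m59mz_GeoPowThreeEven_stmt → m59m_Mazur_stmt → m59e_EntryExt_stmt → m59m_Hard_stmt`**
  (the read-off discharged down to its only open leaf, the cells at `p = 3`, `q` odd, EVEN level).
-/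
import Mathlib
import Fermat.Agent.M59.Mazur.ReadOffT
import Fermat.Agent.M59.S38g.RigidifierOf

set_option autoImplicit false
set_option linter.style.haveILetI false
set_option linter.unusedSectionVars false
set_option linter.unusedVariables false
set_option synthInstance.maxHeartbeats 400000
set_option maxHeartbeats 1000000

open Polynomial CuspForm IsLocalRing WeierstrassCurve Fermat.Agent.TW Fermat.Agent.JT3

namespace Fermat.Agent.M59

/-- **flat-mode lowering at a hard prime**, rigid or not: at a non-rigid level (`p = 3`) the trip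
`(N, S) → (N r, S ∪ {r}) → (N r / q, S ∪ {r}) → (N / q, S ∪ {r}) → (N / q, S)`. -/
theorem m59mz_flatLower_of (hMf : m59m_MachFlatR_stmt) (hR : m59mz_ReadOffT_stmt)
    (hMz : m59m_Mazur_stmt) (hE : m59e_EntryExt_stmt) (hRg : m59m_Rigidifier_stmt) :
    m59m_FlatLower_stmt := by
  intro p _ hp W hΔ hW 𝒪 _ _ _ _ _ _ hp𝒪 ρ hT S N q hS h2S hsq hNS hq hqp hqN hpN hunr hhard hall
    hocc
  have hq2 : q ≠ 2 := m59m_hard_ne_two hp hhard
  by_cases hrig : m59ep_Rigid p N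
  · have hlift := hMf p hp W hΔ hW 𝒪 hp𝒪 ρ hT S N q hS h2S hsq hNS hq hqp hqN hpN hrig hunr hhard
      (fun ℓ hℓ hℓp hℓN hu => Or.inl (hall ℓ hℓ hℓp hℓN hu)) hocc
    exact hR p hp W hΔ hW 𝒪 hp𝒪 ρ hT S N q hS h2S hsq hNS hq hqp hq2 hqN (fun _ => hpN) hlift
  · -- `p = 3` and the level has no prime `≡ 2 mod 3`
    have hp3 : p = 3 := by
      by_contra h
      exact hrig (fun h3 => absurd h3 h)
    subst hp3
    obtain ⟨r, hr, hrS, hr3, har⟩ := hRg W hΔ hW 𝒪 hp𝒪 ρ hT S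
    have h3prime : Nat.Prime 3 := by norm_num
    have hrN : ¬ r ∣ N := fun h => hrS (hNS r hr h)
    have hr3' : r ≠ 3 := by rintro rfl; omega
    have hrgood : W.IsGoodPrimeFor r := by
      by_contra hb
      exact hrS (hS.2 r hr hb)
    have hSS' : S ⊆ insert r S := Finset.subset_insert r S
    have hS' : m59e_IsBadSet W 3 (insert r S) :=
      ⟨hSS' hS.1, fun ℓ hℓ hb => hSS' (hS.2 ℓ hℓ hb)⟩
    have h2S' : 2 ∈ insert r S := hSS' h2S
    have hNpos : 0 < N := Nat.pos_of_ne_zero hsq.ne_zero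
    have hcop : Nat.Coprime N r := ((Nat.Prime.coprime_iff_not_dvd hr).mpr hrN).symm
    have hsq' : Squarefree (N * r) :=
      (Nat.squarefree_mul_iff).mpr ⟨hcop, hsq, hr.squarefree⟩
    have hNS' : ∀ ℓ : ℕ, ℓ.Prime → ℓ ∣ N * r → ℓ ∈ insert r S := by
      intro ℓ hℓ hd
      rcases (Nat.Prime.dvd_mul hℓ).mp hd with h | h
      · exact hSS' (hNS ℓ hℓ h)
      · rw [(Nat.prime_dvd_prime_iff_eq hℓ hr).mp h]
        exact Finset.mem_insert_self r S
    have hocc' : m59e_Occ 3 W (insert r S) (N * r) :=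
      m59m_occ_mono2 3 W hSS' (Dvd.intro r rfl) (Nat.mul_pos hNpos hr.pos) hNS' hocc
    have hqN' : q ∣ N * r := Dvd.dvd.mul_right hqN r
    have h3N' : ¬ 3 ∣ N * r := by
      intro h
      rcases (Nat.Prime.dvd_mul h3prime).mp h with h | h
      · exact hpN h
      · exact hr3' ((Nat.prime_dvd_prime_iff_eq h3prime hr).mp h).symm
    have hrig' : m59ep_Rigid 3 (N * r) := fun _ => ⟨r, hr, Dvd.intro_left N rfl, hr3⟩
    have hall' : ∀ ℓ : ℕ, ℓ.Prime → ℓ ≠ 3 → ℓ ∣ N * r → ρ.residual.IsUnramifiedAt ℓ →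
        m59m_IsHard 3 ρ.residual ℓ ∨ m59m_IsHarmless 3 ρ.residual ℓ := by
      intro ℓ hℓ hℓp hd hu
      rcases (Nat.Prime.dvd_mul hℓ).mp hd with h | h
      · exact Or.inl (hall ℓ hℓ hℓp h hu)
      · have hℓr : ℓ = r := (Nat.prime_dvd_prime_iff_eq hℓ hr).mp h
        subst hℓr
        exact Or.inr (m59m_harmless_of_rigidifier hp𝒪 hT hℓ hrgood hr3 har)
    have hlift := hMf 3 hp W hΔ hW 𝒪 hp𝒪 ρ hT (insert r S) (N * r) q hS' h2S' hsq' hNS' hq hqp
      hqN' h3N' hrig' hunr hhard hall' hocc'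
    have hocc2 : m59e_Occ 3 W (insert r S) (N * r / q) :=
      hR 3 hp W hΔ hW 𝒪 hp𝒪 ρ hT (insert r S) (N * r) q hS' h2S' hsq' hNS' hq hqp hq2 hqN'
        (fun _ => h3N') hlift
    have hdiv : N * r / q = N / q * r := by
      obtain ⟨c, hc⟩ := hqN
      rw [hc, mul_assoc, Nat.mul_div_cancel_left _ hq.pos, Nat.mul_div_cancel_left _ hq.pos]
    rw [hdiv] at hocc2
    -- [MAZUR] at the non-hard `r`
    have hNq : N / q ∣ N := Nat.div_dvd_of_dvd hqN
    have hdvd2 : N / q * r ∣ N * r := Nat.mul_dvd_mul_right hNq r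
    have hsq2 : Squarefree (N / q * r) := hsq'.squarefree_of_dvd hdvd2
    have hNS2 : ∀ ℓ : ℕ, ℓ.Prime → ℓ ∣ N / q * r → ℓ ∈ insert r S := fun ℓ hℓ hd =>
      hNS' ℓ hℓ (dvd_trans hd hdvd2)
    have hnothard : ¬ m59m_IsHard 3 ρ.residual r := by
      intro h
      have := h.1
      omega
    have hocc3 : m59e_Occ 3 W (insert r S) (N / q * r / r) :=
      hMz 3 hp W hΔ hW 𝒪 hp𝒪 ρ hT (insert r S) (N / q * r) r hS' h2S' hsq2 hNS2 hr hr3'
        (Dvd.intro_left _ rfl) (fun _ h => h3N' (dvd_trans h hdvd2))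
        (m59m_residual_unram (hT.unram r hr hr3' hrgood)) hnothard hocc2
    rw [Nat.mul_div_cancel _ hr.pos] at hocc3
    -- back to `S`: [ENTRY-ext]
    have hNqpos : 0 < N / q := Nat.div_pos (Nat.le_of_dvd hNpos hqN) hq.pos
    haveI : NeZero (N / q) := ⟨hNqpos.ne'⟩
    have hNSq : ∀ ℓ : ℕ, ℓ.Prime → ℓ ∣ N / q → ℓ ∈ S := fun ℓ hℓ hd =>
      hNS ℓ hℓ (dvd_trans hd hNq)
    obtain ⟨θ₀, hc, -⟩ := hE 3 hp W hΔ hW 𝒪 hp𝒪 ρ hT (insert r S) S (N / q) hS'
      (hsq.squarefree_of_dvd hNq) hSS' hS.1 hNSq hocc3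
    haveI : CharP (ResidueField 𝒪) 3 := m59m_charP_residue 3 hp𝒪
    exact ⟨inferInstance, ResidueField 𝒪, inferInstance, inferInstance, θ₀,
      m59m_eig_of_compat hT hS θ₀ hc⟩

/-- **[HARD] from [LOW-core], the flat-mode lowering, [MACH-g] ordinary mode and [RO-g]**
(twin of `m59m_hard_of_flatLower`). -/
theorem m59mz_hard_of_flatLower (Peu : m59e_PeuPred) (hLC : m59e_LowCore_stmt Peu)
    (hFL : m59m_FlatLower_stmt) (hMo : m59m_MachOrd_stmt Peu) (hR : m59mz_ReadOffT_stmt) :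
    m59m_Hard_stmt := by
  intro p _ hp W hΔ hW 𝒪 _ _ _ _ _ _ hp𝒪 ρ hT S N q hS h2S hsq hNS hq hqp hqN hgood hunr hhard
    hall hocc
  have hq2 : q ≠ 2 := m59m_hard_ne_two hp hhard
  have hNpos : 0 < N := Nat.pos_of_ne_zero hsq.ne_zero
  by_cases hpN : p ∣ N
  · have hbad : ¬ W.IsGoodPrimeFor p := fun hg => hgood hg hpN
    by_cases hoccp : m59e_Occ p W S (N / p)
    · -- flat mode at level `N / p`, then back up
      have hpp : p.Prime := Fact.out
      have hdiv : N / p ∣ N := Nat.div_dvd_of_dvd hpN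
      have hsq' : Squarefree (N / p) := hsq.squarefree_of_dvd hdiv
      have hNS' : ∀ r : ℕ, r.Prime → r ∣ N / p → r ∈ S := fun r hr hrd =>
        hNS r hr (dvd_trans hrd hdiv)
      have hqN' : q ∣ N / p := by
        have h1 : q ∣ p * (N / p) := by rwa [Nat.mul_div_cancel' hpN]
        rcases (Nat.Prime.dvd_mul hq).mp h1 with h | h
        · exact absurd ((Nat.prime_dvd_prime_iff_eq hq hpp).mp h) hqp
        · exact h
      have hpN' : ¬ p ∣ N / p := by
        intro h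
        obtain ⟨c, hc⟩ := h
        have h1 : N = p * (N / p) := (Nat.mul_div_cancel' hpN).symm
        have h2 : p * p ∣ N := ⟨c, by rw [h1, hc]; ring⟩
        exact hpp.one_lt.ne' (Nat.isUnit_iff.mp (hsq p h2))
      have hocc2 : m59e_Occ p W S (N / p / q) :=
        hFL p hp W hΔ hW 𝒪 hp𝒪 ρ hT S (N / p) q hS h2S hsq' hNS' hq hqp hqN' hpN'
          hunr hhard (fun ℓ hℓ hℓp hℓd => hall ℓ hℓ hℓp (dvd_trans hℓd hdiv)) hoccp
      have hdiv2 : N / p / q ∣ N / q := by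
        rw [Nat.div_div_eq_div_mul, mul_comm, ← Nat.div_div_eq_div_mul]
        exact Nat.div_dvd_of_dvd (by
          have h1 : p ∣ q * (N / q) := by rwa [Nat.mul_div_cancel' hqN]
          rcases (Nat.Prime.dvd_mul hpp).mp h1 with h | h
          · exact absurd ((Nat.prime_dvd_prime_iff_eq hpp hq).mp h).symm hqp
          · exact h)
      have hNq : N / q ∣ N := Nat.div_dvd_of_dvd hqN
      exact m59e_occ_mono p W S hdiv2 (Nat.div_pos (Nat.le_of_dvd hNpos hqN) hq.pos)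
        (fun r hr hrd => hNS r hr (dvd_trans hrd hNq)) hocc2
    · -- every form is `p`-new: [LOW-core] in contrapositive, then the ordinary mode
      have hpeu : ¬ Peu (ResidueField 𝒪) ρ.residual p := fun hP =>
        hoccp (hLC p hp W hΔ hW 𝒪 hp𝒪 ρ hT S N hS h2S hsq hNS hpN hP hocc)
      have hlift := hMo p hp W hΔ hW 𝒪 hp𝒪 ρ hT S N q hS h2S hsq hNS hq hqp hqN hpN hbad hoccp
        hpeu hunr hhard hall hocc
      exact hR p hp W hΔ hW 𝒪 hp𝒪 ρ hT S N q hS h2S hsq hNS hq hqp hq2 hqN hgood hlift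
  · exact hFL p hp W hΔ hW 𝒪 hp𝒪 ρ hT S N q hS h2S hsq hNS hq hqp hqN hpN hunr hhard hall hocc

/-- **[HARD], second wiring** (rigidifier at `p = 3` handled at the `Occ` level). -/
theorem m59mz_hard_of2 (Peu : m59e_PeuPred) (hLC : m59e_LowCore_stmt Peu)
    (hMf : m59m_MachFlatR_stmt) (hMo : m59m_MachOrd_stmt Peu) (hR : m59mz_ReadOffT_stmt)
    (hMz : m59m_Mazur_stmt) (hE : m59e_EntryExt_stmt) (hRg : m59m_Rigidifier_stmt) :
    m59m_Hard_stmt :=
  m59mz_hard_of_flatLower Peu hLC (m59mz_flatLower_of hMf hR hMz hE hRg) hMo hR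

/-- **[HARD], third wiring** (rigidifier discharged). -/
theorem m59mz_hard_of3 (Peu : m59e_PeuPred) (hLC : m59e_LowCore_stmt Peu)
    (hMf : m59m_MachFlatR_stmt) (hMo : m59m_MachOrd_stmt Peu) (hR : m59mz_ReadOffT_stmt)
    (hMz : m59m_Mazur_stmt) (hE : m59e_EntryExt_stmt) : m59m_Hard_stmt :=
  m59mz_hard_of2 Peu hLC hMf hMo hR hMz hE m59m_rigidifier

/-- **[HARD], fourth wiring**: the read-off discharged down to the cells at `p = 3`, even level. -/
theorem m59mz_hard_of4 (Peu : m59e_PeuPred) (hLC : m59e_LowCore_stmt Peu)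
    (hMf : m59m_MachFlatR_stmt) (hMo : m59m_MachOrd_stmt Peu)
    (hG3 : m59mz_GeoPowThreeEven_stmt) (hMz : m59m_Mazur_stmt) (hE : m59e_EntryExt_stmt) :
    m59m_Hard_stmt :=
  m59mz_hard_of3 Peu hLC hMf hMo
    (m59mz_readoffT_of (m59mz_readoffE_of (m59mz_geoPowOdd_of hG3)) hMz) hMz hE

end Fermat.Agent.M59
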