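/-
M59 / block [MAZUR] (helper16; prefix `m59mz_`): WIRING AFTER [GEO-3e] AND [RO-g] ARE CLOSED.

* `m59mz_mazur_of4 : m59mz_GeoTwoFive_stmt → m59mz_ThreeTwo_stmt → m59m_Mazur_stmt`
  (`m59mz_mazur_of3` with `m59mz_geoThreeEven`): [MAZUR] has TWO open leaves, both at `q = 2`;
* `m59mz_readoffT : m59m_Mazur_stmt → m59mz_ReadOffT_stmt` ([RO-g] in the Tate context: no leaf of its
  own left);
* `m59mz_hard_of5 (Peu) : m59e_LowCore_stmt Peu → m59m_MachFlatR_stmt → m59m_MachOrd_stmt Peu →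
    m59m_Mazur_stmt → m59e_EntryExt_stmt → m59m_Hard_stmt`  (`m59mz_hard_of4` with
  `m59mz_geoPowThreeEven`).
-/
import Mathlib
import Fermat.Agent.M59.Mazur.Even.Cells
import Fermat.Agent.M59.Mazur.Closed2
import Fermat.Agent.M59.Mazur.HardOfT

set_option autoImplicit false

noncomputable section

namespace Fermat.Agent.M59

/-- **[MAZUR] from its two `q = 2` leaves.** -/
theorem m59mz_mazur_of4 (hG25 : m59mz_GeoTwoFive_stmt) (h32 : m59mz_ThreeTwo_stmt) :
    m59m_Mazur_stmt :=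
  m59mz_mazur_of3 m59mz_geoThreeEven hG25 h32

/-- **[RO-g] in the Tate context**: only [MAZUR] (at the prime `2`) is used. -/
theorem m59mz_readoffT (hMz : m59m_Mazur_stmt) : m59mz_ReadOffT_stmt :=
  m59mz_readoffT_of (m59mz_readoffE_of (m59mz_geoPowOdd_of m59mz_geoPowThreeEven)) hMz

/-- **[HARD], fifth wiring**: the read-off has no leaf of its own left. -/
theorem m59mz_hard_of5 (Peu : m59e_PeuPred) (hLC : m59e_LowCore_stmt Peu)
    (hMf : m59m_MachFlatR_stmt) (hMo : m59m_MachOrd_stmt Peu) (hMz : m59m_Mazur_stmt)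
    (hE : m59e_EntryExt_stmt) : m59m_Hard_stmt :=
  m59mz_hard_of4 Peu hLC hMf hMo m59mz_geoPowThreeEven hMz hE

end Fermat.Agent.M59
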