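/-
M59 / block [MAZUR] (helper16; prefix `m59mz_`): THE LEAF [GEO-32r] AND THE WIRING
`[GEO-32r] ⟹ [MZ-32]` (chief's ruling #5517 (T1)).

* `m59mz_Geo32r_stmt` : the geometric cells `m59mz_Geo M hqM 3` at `q = 2` over a squarefree ODD level
  `M` which is `3`-RIGID (`r ∣ M` for a prime `r ≡ 2 mod 3`).
* `m59mz_threeTwoR_of32r : m59mz_Geo32r_stmt → m59m32_ThreeTwoR_stmt` : the trip
  `(N, S) → (N r, S ∪ {r})` [rigidifier `r ∉ S`, `r ≡ 2 (3)`, `3 ∤ a_r`; `m59m_occ_mono2`]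
  `→ (N r / 2, S ∪ {r})` [[GEO-32r] at `M = (N / 2) r`, `m59mz_lower_of_geo`; `2` is never hard]
  `→ (N / 2, S ∪ {r})` [`m59m32_lower_harmless` at the harmless `r`] `→ (N / 2, S)` [ENTRY-ext].
* `m59mz_threeTwo_of32r : m59mz_Geo32r_stmt → m59mz_ThreeTwo_stmt`.
-/
import Mathlib
import Fermat.Agent.M59.Mazur.Closed3
import Fermat.Agent.M59.Mazur.MZ32.NRLower
import Fermat.Agent.M59.LG.EntryExt

set_option autoImplicit false
set_option linter.unusedSectionVars false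
set_option linter.unusedVariables false
set_option linter.style.haveILetI false
set_option synthInstance.maxHeartbeats 400000
set_option maxHeartbeats 1000000

noncomputable section

namespace Fermat.Agent.M59

open WeierstrassCurve IsLocalRing Fermat.Agent.TW

/-- **[GEO-32r]**: the cells [GEO] at `(p, q) = (3, 2)` over a squarefree odd `3`-rigid level. -/
def m59mz_Geo32r_stmt : Prop :=
  ∀ (M q : ℕ) [NeZero M] [NeZero q] [NeZero (M * q)] [Fact q.Prime] (hqM : ¬ q ∣ M),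
    q = 2 → Squarefree M → ∀ r : ℕ, r.Prime → r ∣ M → r % 3 = 2 → m59mz_Geo M hqM 3

/-- **case (R) of [MZ-32] from [GEO-32r].** -/
theorem m59mz_threeTwoR_of32r (hG : m59mz_Geo32r_stmt) : m59m32_ThreeTwoR_stmt := by
  intro W hΔ hW 𝒪 _ _ _ _ _ _ hp𝒪 ρ hT S N hS h2S hsq hNS h2N hgood hunr _ hocc
  haveI : Fact (Nat.Prime 3) := ⟨by norm_num⟩
  have hp : (3 : ℕ) = 3 ∨ (3 : ℕ) = 5 := Or.inl rfl
  have hirr : W.ModRepIsIrreducible 3 := m59lg_irrW 3 hp W hΔ hW 𝒪 hp𝒪 ρ hT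
  have hlink : m59mz_IsLink 3 W ρ.residual := m59lg_link 3 hp W hΔ hW 𝒪 hp𝒪 ρ hT
  obtain ⟨r, hr, hrS, hr3, har⟩ := m59m_rigidifier W hΔ hW 𝒪 hp𝒪 ρ hT S
  have hrN : ¬ r ∣ N := fun h => hrS (hNS r hr h)
  have hr3' : r ≠ 3 := by rintro rfl; omega
  have hr2 : r ≠ 2 := by rintro rfl; exact hrS h2S
  have hrgood : W.IsGoodPrimeFor r := by
    by_contra hb
    exact hrS (hS.2 r hr hb)
  have hSS' : S ⊆ insert r S := Finset.subset_insert r S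
  have hS' : m59e_IsBadSet W 3 (insert r S) :=
    ⟨hSS' hS.1, fun ℓ hℓ hb => hSS' (hS.2 ℓ hℓ hb)⟩
  have hNpos : 0 < N := Nat.pos_of_ne_zero hsq.ne_zero
  have hcop : Nat.Coprime N r := ((Nat.Prime.coprime_iff_not_dvd hr).mpr hrN).symm
  have hsq' : Squarefree (N * r) :=
    (Nat.squarefree_mul_iff).mpr ⟨hcop, hsq, hr.squarefree⟩
  have hNS' : ∀ ℓ : ℕ, ℓ.Prime → ℓ ∣ N * r → ℓ ∈ insert r S := by
    intro ℓ hℓ hd
    rcases (Nat.Prime.dvd_mul hℓ).mp hd with h | h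
    · exact hSS' (hNS ℓ hℓ h)
    · rw [(Nat.prime_dvd_prime_iff_eq hℓ hr).mp h]
      exact Finset.mem_insert_self r S
  have hocc' : m59e_Occ 3 W (insert r S) (N * r) :=
    m59m_occ_mono2 3 W hSS' (Dvd.intro r rfl) (Nat.mul_pos hNpos hr.pos) hNS' hocc
  -- the level `N r = M · 2`, `M = (N / 2) r`
  have hN2 : N = N / 2 * 2 := (Nat.div_mul_cancel h2N).symm
  have hNr : N * r = N / 2 * r * 2 := by
    calc N * r = N / 2 * 2 * r := by rw [← hN2]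
      _ = N / 2 * r * 2 := by ring
  have hMdvd : N / 2 * r ∣ N * r := ⟨2, hNr⟩
  have hsqM : Squarefree (N / 2 * r) := hsq'.squarefree_of_dvd hMdvd
  have h2M : ¬ 2 ∣ N / 2 * r := by
    intro h
    have h4 : 2 * 2 ∣ N * r := by
      rw [hNr]
      exact Nat.mul_dvd_mul_right h 2
    exact absurd (Nat.isUnit_iff.mp (hsq' 2 h4)) (by norm_num)
  have hM0 : N / 2 * r ≠ 0 := hsqM.ne_zero
  haveI : NeZero (N / 2 * r) := ⟨hM0⟩
  haveI : NeZero (2 : ℕ) := ⟨by norm_num⟩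
  haveI : NeZero (N / 2 * r * 2) := ⟨by rw [← hNr]; exact hsq'.ne_zero⟩
  haveI : Fact (Nat.Prime 2) := ⟨Nat.prime_two⟩
  have hnothard2 : ¬ m59m_IsHard 3 ρ.residual 2 := by
    intro h
    have := h.1
    omega
  have hocc2 : m59e_Occ 3 W (insert r S) (N / 2 * r) :=
    m59mz_lower_of_geo m59mz_levelDelta m59mz_copy 3 hp W hΔ hirr 𝒪 hp𝒪 ρ hT hlink (insert r S)
      hS' (N / 2 * r) 2 h2M (by norm_num)
      (fun ℓ hℓ h => hNS' ℓ hℓ (by rw [hNr]; exact h)) hunr hnothard2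
      (hG (N / 2 * r) 2 h2M rfl hsqM r hr (Dvd.intro_left _ rfl) hr3)
      (by rw [← hNr]; exact hocc')
  -- the harmless `r`
  have hNS2 : ∀ ℓ : ℕ, ℓ.Prime → ℓ ∣ N / 2 * r → ℓ ∈ insert r S := fun ℓ hℓ hd =>
    hNS' ℓ hℓ (dvd_trans hd hMdvd)
  have hocc3 : m59e_Occ 3 W (insert r S) (N / 2 * r / r) :=
    m59m32_lower_harmless 3 hp W hΔ hW 𝒪 hp𝒪 ρ hT (insert r S) (N / 2 * r) r hS' hsqM hNS2 hr hr3'
      (Dvd.intro_left _ rfl) (m59m_harmless_of_rigidifier hp𝒪 hT hr hrgood hr3 har) hocc2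
  rw [Nat.mul_div_cancel _ hr.pos] at hocc3
  -- back to `S`: [ENTRY-ext]
  have hNq : N / 2 ∣ N := Nat.div_dvd_of_dvd h2N
  have hNqpos : 0 < N / 2 := Nat.div_pos (Nat.le_of_dvd hNpos h2N) (by norm_num)
  haveI : NeZero (N / 2) := ⟨hNqpos.ne'⟩
  have hNSq : ∀ ℓ : ℕ, ℓ.Prime → ℓ ∣ N / 2 → ℓ ∈ S := fun ℓ hℓ hd =>
    hNS ℓ hℓ (dvd_trans hd hNq)
  obtain ⟨θ₀, hc, -⟩ := m59lg_entryExt 3 hp W hΔ hW 𝒪 hp𝒪 ρ hT (insert r S) S (N / 2) hS'
    (hsq.squarefree_of_dvd hNq) hSS' hS.1 hNSq hocc3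
  haveI : CharP (ResidueField 𝒪) 3 := m59m_charP_residue 3 hp𝒪
  exact ⟨inferInstance, ResidueField 𝒪, inferInstance, inferInstance, θ₀,
    m59m_eig_of_compat hT hS θ₀ hc⟩

/-- **[MZ-32] from [GEO-32r]** (case (H) is helper23's theorem `m59m32_threeTwoH`). -/
theorem m59mz_threeTwo_of32r (hG : m59mz_Geo32r_stmt) : m59mz_ThreeTwo_stmt :=
  m59m32_threeTwo_of (m59mz_threeTwoR_of32r hG)

/-- **[MAZUR] from [GEO-52] and [GEO-32r].** -/
theorem m59mz_mazur_of5 (hG25 : m59mz_GeoTwoFive_stmt) (hG32 : m59mz_Geo32r_stmt) :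
    m59m_Mazur_stmt :=
  m59mz_mazur_of4 hG25 (m59mz_threeTwo_of32r hG32)

end Fermat.Agent.M59
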