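/-
M59 / block [MAZUR] (helper16, owner of [GEO-32r]; prefix `m59mz_`): THE ASSEMBLY OF [GEO-32r].

`m59mz_geo32r_of : m59m32_N1_stmt → m59mz_OrdThree_stmt → m59mz_Geo32r_stmt`, i.e. the leaf [GEO-32r]
(`M59/Mazur/Geo32r.lean`) from

* **(N1)** `m59m32_N1_stmt` (helper23, `MZ32/N1Stmt.lean`): `3 ∣ ord_Q ū` at every supersingular place
  of a `3`-rigid odd level, frame prime `2`;
* **(E2-ord) at the exponent `3`** `m59mz_OrdThree_stmt` : main's cover-free `twfr_OrdOff A hA M hqM 3`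
  for every frame prime `q`, `3 ∤ q` (the exponent-27 pass, helper5);

through helper28's recut weights `m59h3c_compCells_three` ((Z3)+(Z4) at `m = 3`) and helper29's
generic-exponent assembly `m59h2g_geo_of_ord_comp` ((Z6), (Z8), linearity of `δ` from (E2-ord) alone).

`m59mz_geo32r_of2 : m59m32_N1A_stmt → m59mz_OrdThree_stmt → m59mz_Geo32r_stmt` uses helper23's closed
`m59m32_N1B` and `m59m32_N1_of`.
-/
import Mathlib
import Fermat.Agent.M59.Mazur.Geo32r
import Fermat.Agent.M59.Mazur.MZ32.N1B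
import Fermat.Agent.M59.Hesse2.Res3.Comp
import Fermat.Agent.M59.Hesse2.Toric.HesGenGeo

set_option autoImplicit false
set_option linter.unusedSectionVars false
set_option linter.unusedVariables false
set_option linter.style.haveILetI false
set_option synthInstance.maxHeartbeats 400000
set_option maxHeartbeats 1000000

noncomputable section

namespace Fermat.Agent.M59

open ModularCurve AlgebraicCurve IsLocalRing Fermat.Agent.JT3 Fermat.Agent.S35 Fermat.Agent.SS
  Fermat.Agent.S24 Fermat.Agent.S44 Fermat.Agent.TW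

local notation "Qb" => AlgebraicClosure ℚ

/-- **(E2-ord) at the exponent `3`**, every frame prime `q` with `3 ∤ q`, every level `M`, `q ∤ M`
(main's cover-free Prop `twfr_OrdOff`). -/
def m59mz_OrdThree_stmt : Prop :=
  ∀ (A : ValuationSubring Qb) {q : ℕ} [Fact q.Prime] (hA : A.LiesOverPrime q) (M : ℕ) [NeZero M]
    [NeZero q] [NeZero (M * q)] (hqM : ¬ q ∣ M), ¬ 3 ∣ q → twfr_OrdOff A hA M hqM 3

/-- **[GEO-32r] from (N1) and (E2-ord) at the exponent `3`.** -/
theorem m59mz_geo32r_of (hN1 : m59m32_N1_stmt) (hOrd : m59mz_OrdThree_stmt) :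
    m59mz_Geo32r_stmt := by
  intro M q _ _ _ hq hqM hq2 _ r hr hrM hr3
  subst hq2
  have h32 : ¬ 3 ∣ 2 := by norm_num
  refine m59h2g_geo_of_ord_comp M hqM h32 (by norm_num) (by norm_num)
    (fun A hA => hOrd A hA M hqM h32) (fun A hA => ?_)
  exact m59h3c_compCells_three A hA M hqM h32 (hOrd A hA M hqM h32)
    (fun Q hQ => hN1 A hA M hqM r hr hrM hr3 Q hQ)

/-- **[GEO-32r] from the cube (A) and (E2-ord) at the exponent `3`** ((B) is helper23's theorem). -/
theorem m59mz_geo32r_of2 (hA : m59m32_N1A_stmt) (hOrd : m59mz_OrdThree_stmt) :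
    m59mz_Geo32r_stmt :=
  m59mz_geo32r_of (m59m32_N1_of hA m59m32_N1B) hOrd

/-- **[MZ-32] from (A) and (E2-ord) at the exponent `3`.** -/
theorem m59mz_threeTwo_of6 (hA : m59m32_N1A_stmt) (hOrd : m59mz_OrdThree_stmt) :
    m59mz_ThreeTwo_stmt :=
  m59mz_threeTwo_of32r (m59mz_geo32r_of2 hA hOrd)

/-- **[MAZUR] from [GEO-52], (A) and (E2-ord) at the exponent `3`.** -/
theorem m59mz_mazur_of6 (hG25 : m59mz_GeoTwoFive_stmt) (hA : m59m32_N1A_stmt)
    (hOrd : m59mz_OrdThree_stmt) : m59m_Mazur_stmt :=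
  m59mz_mazur_of5 hG25 (m59mz_geo32r_of2 hA hOrd)

end Fermat.Agent.M59
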