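/-
M59 / block [MAZUR] (helper16; prefix `m59mz_`): **[MAZUR] IS A THEOREM.**

All inputs are on main:

* (N1) `m59m32_N1 : m59m32_N1_stmt` (helper23, `MZ32/N1A0.lean`);
* (E2-ord) at the exponent `3` `m59h3o_ordOff_three` (helper5, `Hesse3/Ord/OrdThree.lean`);
* the recut weights + generic-exponent assembly behind `m59mz_geo32r_of` (helper28, helper29);
* [GEO-52] `m59h2_geoTwoFive` (helper28, `Hesse2/GeoTwoFive.lean`).

Hence

* `m59mz_ordThree : m59mz_OrdThree_stmt`,
* `m59mz_geo32r : m59mz_Geo32r_stmt` (leaf [GEO-32r]),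
* `m59mz_threeTwoR : m59m32_ThreeTwoR_stmt` (leaf `h32R` of `M59/Top/Final.lean`),
* `m59mz_threeTwo : m59mz_ThreeTwo_stmt` ([MZ-32]),
* `m59mz_mazur : m59m_Mazur_stmt` ([MAZUR], unconditional).
-/
import Mathlib
import Fermat.Agent.M59.Mazur.Geo32rAsm
import Fermat.Agent.M59.Mazur.MZ32.N1A0
import Fermat.Agent.M59.Hesse3.Ord.OrdThree
import Fermat.Agent.M59.Hesse2.GeoTwoFive

set_option autoImplicit false
set_option linter.unusedSectionVars false
set_option linter.unusedVariables false
set_option linter.style.haveILetI false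
set_option synthInstance.maxHeartbeats 400000
set_option maxHeartbeats 1000000

noncomputable section

namespace Fermat.Agent.M59

open ModularCurve AlgebraicCurve IsLocalRing Fermat.Agent.JT3 Fermat.Agent.S35 Fermat.Agent.SS
  Fermat.Agent.S24 Fermat.Agent.S44 Fermat.Agent.TW

local notation "Qb" => AlgebraicClosure ℚ

/-- **(E2-ord) at the exponent `3`** (helper5's `m59h3o_ordOff_three`, repackaged). -/
theorem m59mz_ordThree : m59mz_OrdThree_stmt := by
  intro A q _ hA M _ _ _ hqM h3
  exact m59h3o_ordOff_three A hA M hqM h3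

/-- **[GEO-32r] is a theorem.** -/
theorem m59mz_geo32r : m59mz_Geo32r_stmt :=
  m59mz_geo32r_of m59m32_N1 m59mz_ordThree

/-- **[MZ-32] case (R) is a theorem** (leaf `h32R` of `M59/Top/Final.lean`). -/
theorem m59mz_threeTwoR : m59m32_ThreeTwoR_stmt :=
  m59mz_threeTwoR_of32r m59mz_geo32r

/-- **[MZ-32] is a theorem.** -/
theorem m59mz_threeTwo : m59mz_ThreeTwo_stmt :=
  m59mz_threeTwo_of32r m59mz_geo32r

/-- **[MAZUR] is a theorem** (`m59m_Mazur_stmt`, unconditional). -/
theorem m59mz_mazur : m59m_Mazur_stmt :=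
  m59mz_mazur_of5 m59h2_geoTwoFive m59mz_geo32r

end Fermat.Agent.M59
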